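import Mathlib
import Fermat.Agent.MU.Lib.BadRed.Graph.Lift
import Fermat.Agent.MU.Lib.BadRed.Graph.RedSpaceG

section MergeWrap_Lib_BadRed_Graph_S1 -- from Lib/BadRed/Graph/S1.lean

set_option autoImplicit false

/-!
# Cluster G (S36), G-DEU, step S1: `V(m D₀) = graphRR (m R)` for `m ≥ m₀`, the genus relation, (LIFT)

Port of `Fermat.Agent.BadRed.NodalSeed.{genus_eq, V_eq, exists_lift}` (cluster T,
`Nodal/Deuring2/S1.lean`) to a family `κ` of components.

Inputs: the joint lattice property (PL) `GraphCore.finrank_V` (`Graph/RedSpaceG.lean`) and the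
dimension of the graph Riemann-Roch spaces, which is the HYPOTHESIS `GraphSeed.HasRRDim` here
(it is discharged in `Graph/RRGraph.lean`).

Results (for a seed `G`, `κ` nonempty):

* `GraphSeed.V_le` : `V(m D₀) ≤ graphRR (m R)` (unconditional);
* `GraphSeed.degree_smul_R_gt` : `deg (m R_c) > 2 g_c + #ι` for `m ≥ m₀`;
* `GraphSeed.genus_eq_of` : the genus relation `g + #κ = Σ g_c + #ι + 1`;
* `GraphSeed.V_eq_of` : `V(m D₀) = graphRR (m R)` for `m ≥ m₀`;
* `GraphSeed.exists_lift_of`, `GraphSeed.hasLift_of` : (LIFT).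
-/

noncomputable section

open AlgebraicCurve Fermat.Agent.RR Fermat.Agent.Deuring

namespace Fermat.Agent.BadRedG

open Fermat.Agent.BadRed

variable {K F k : Type*} [Field K] [Field F] [Algebra K F] [Field k]
  {κ : Type*} {Fk : κ → Type*} [∀ c, Field (Fk c)] [∀ c, Algebra k (Fk c)] {ι : Type*}

variable [Fintype κ] [Fintype ι]

/-- the threshold of S1. -/
def GraphSeed.m₀ (_G : GraphSeed K F k κ Fk ι) : ℕ :=
  2 * (genusFF K F + ∑ c, genusFF k (Fk c)) + Fintype.card ι + 1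

/-- the dimension of the graph Riemann-Roch spaces of the multiples of the seed, for `m ≥ m₀`. -/
def GraphSeed.HasRRDim (G : GraphSeed K F k κ Fk ι) : Prop :=
  ∀ m : ℕ, G.m₀ ≤ m →
    Module.Finite k (graphRR G.src G.tgt G.s₁ G.s₂ (fun c => m • G.R c)) ∧
    (Module.finrank k (graphRR G.src G.tgt G.s₁ G.s₂ (fun c => m • G.R c)) : ℤ) =
      m * Divisor.degree G.D₀ + Fintype.card κ - (∑ c, (genusFF k (Fk c) : ℤ))
        - Fintype.card ι

variable (G : GraphSeed K F k κ Fk ι)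

/-- the seed property: `V(m D₀) ≤ graphRR (m R)`. -/
theorem GraphSeed.V_le (m : ℕ) :
    G.toGraphCore.V (m • G.D₀) ≤ graphRR G.src G.tgt G.s₁ G.s₂ (fun c => m • G.R c) := by
  unfold GraphCore.V
  rw [Submodule.span_le]
  rintro y ⟨f, hf, rfl⟩
  exact G.seed m f hf.1 hf.2

theorem GraphSeed.degree_D₀_pos [Nonempty κ] : 0 < Divisor.degree G.D₀ := by
  rw [← G.deg_eq]
  exact Finset.sum_pos (fun c _ => G.R_pos c) Finset.univ_nonempty

theorem GraphSeed.ell_smul_D₀ [Nonempty κ] {m : ℕ} (hm : G.m₀ ≤ m) :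
    (ell (m • G.D₀) : ℤ) = m * Divisor.degree G.D₀ + 1 - (genusFF K F : ℤ) := by
  have hdeg : Divisor.degree (m • G.D₀) = m * Divisor.degree G.D₀ := by
    rw [map_nsmul, nsmul_eq_mul]
  rw [← hdeg]
  apply ell_of_degree_gt (G.S (Classical.arbitrary κ)).hF
  rw [hdeg]
  have h1 := G.degree_D₀_pos
  have h2 : (G.m₀ : ℤ) ≤ m := by exact_mod_cast hm
  have h3 : (m : ℤ) ≤ m * Divisor.degree G.D₀ := by nlinarith
  unfold GraphSeed.m₀ at h2
  push_cast at h2
  have h4 : (0 : ℤ) ≤ ∑ c, (genusFF k (Fk c) : ℤ) :=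
    Finset.sum_nonneg (fun c _ => Int.natCast_nonneg _)
  have := Int.natCast_nonneg (Fintype.card ι)
  have := Int.natCast_nonneg (genusFF K F)
  omega

/-! ### the multiples of the seed satisfy the degree conditions of graph Riemann-Roch -/

theorem GraphSeed.smul_R_node₁ (m : ℕ) (i : ι) : (m • G.R (G.src i)) (G.s₁ i) = 0 := by
  rw [Finsupp.smul_apply, G.R_node₁ i, smul_zero]

theorem GraphSeed.smul_R_node₂ (m : ℕ) (i : ι) : (m • G.R (G.tgt i)) (G.s₂ i) = 0 := by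
  rw [Finsupp.smul_apply, G.R_node₂ i, smul_zero]

theorem GraphSeed.degree_smul_R (m : ℕ) (c : κ) :
    Divisor.degree (m • G.R c) = m * Divisor.degree (G.R c) := by
  rw [map_nsmul, nsmul_eq_mul]

theorem GraphSeed.sum_degree_smul_R (m : ℕ) :
    (∑ c, Divisor.degree (m • G.R c)) = m * Divisor.degree G.D₀ := by
  simp only [G.degree_smul_R, ← Finset.mul_sum, G.deg_eq]

theorem GraphSeed.le_degree_smul_R (m : ℕ) (c : κ) : (m : ℤ) ≤ Divisor.degree (m • G.R c) := by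
  rw [G.degree_smul_R]
  have := G.R_pos c
  have hm0 : (0 : ℤ) ≤ m := Int.natCast_nonneg m
  nlinarith

theorem GraphSeed.genus_le_sum (_G : GraphSeed K F k κ Fk ι) (c : κ) :
    (genusFF k (Fk c) : ℤ) ≤ ∑ c, (genusFF k (Fk c) : ℤ) :=
  Finset.single_le_sum (f := fun c => (genusFF k (Fk c) : ℤ))
    (fun _ _ => Int.natCast_nonneg _) (Finset.mem_univ c)

/-- for `m ≥ m₀` the divisors `m R_c` have degree `> 2 g_c + #ι`. -/
theorem GraphSeed.degree_smul_R_gt {m : ℕ} (hm : G.m₀ ≤ m) (c : κ) :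
    2 * (genusFF k (Fk c) : ℤ) + Fintype.card ι < Divisor.degree (m • G.R c) := by
  have h1 := G.le_degree_smul_R m c
  have h2 : (G.m₀ : ℤ) ≤ m := by exact_mod_cast hm
  unfold GraphSeed.m₀ at h2
  push_cast at h2
  have h3 := G.genus_le_sum c
  have := Int.natCast_nonneg (genusFF K F)
  omega

/-- the right hand side of `HasRRDim`, as a sum over the components. -/
theorem GraphSeed.sum_rr_smul (m : ℕ) :
    (∑ c, (Divisor.degree (m • G.R c) + 1 - (genusFF k (Fk c) : ℤ))) - Fintype.card ι =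
      m * Divisor.degree G.D₀ + Fintype.card κ - (∑ c, (genusFF k (Fk c) : ℤ))
        - Fintype.card ι := by
  rw [Finset.sum_sub_distrib, Finset.sum_add_distrib, G.sum_degree_smul_R]
  simp

/-! ### the genus relation and (LIFT) -/

/-- **The genus relation** `g + #κ = Σ g_c + #ι + 1` (the half `≥` is a consequence of the
seed). -/
theorem GraphSeed.genus_eq_of [Nonempty κ] (hRR : G.HasRRDim) :
    genusFF K F + Fintype.card κ = (∑ c, genusFF k (Fk c)) + Fintype.card ι + 1 := by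
  apply le_antisymm G.genus_le
  have hle := G.V_le G.m₀
  obtain ⟨hfin, h3⟩ := hRR G.m₀ (le_refl _)
  have h1 := Submodule.finrank_mono hle
  rw [G.toGraphCore.finrank_V] at h1
  have h2 := G.ell_smul_D₀ (le_refl _)
  have h4 : (ell (G.m₀ • G.D₀) : ℤ) ≤
      (Module.finrank k (graphRR G.src G.tgt G.s₁ G.s₂ (fun c => G.m₀ • G.R c)) : ℤ) := by
    exact_mod_cast h1
  have h5 : ((∑ c, genusFF k (Fk c) : ℕ) : ℤ) = ∑ c, (genusFF k (Fk c) : ℤ) := by
    push_cast; rfl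
  have h6 : ((∑ c, genusFF k (Fk c) : ℕ) : ℤ) + Fintype.card ι + 1 ≤
      (genusFF K F : ℤ) + Fintype.card κ := by
    rw [h5]; omega
  exact_mod_cast h6

/-- **S1**: `V(m D₀) = graphRR (m R)` for `m ≥ m₀`. -/
theorem GraphSeed.V_eq_of [Nonempty κ] (hRR : G.HasRRDim) {m : ℕ} (hm : G.m₀ ≤ m) :
    G.toGraphCore.V (m • G.D₀) = graphRR G.src G.tgt G.s₁ G.s₂ (fun c => m • G.R c) := by
  obtain ⟨hfin, h3⟩ := hRR m hm
  apply Submodule.eq_of_le_of_finrank_le (G.V_le m)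
  rw [G.toGraphCore.finrank_V]
  have h2 := G.ell_smul_D₀ hm
  have h4 := G.genus_le
  have h5 : ((∑ c, genusFF k (Fk c) : ℕ) : ℤ) = ∑ c, (genusFF k (Fk c) : ℤ) := by
    push_cast; rfl
  have h6 : (genusFF K F : ℤ) + Fintype.card κ ≤
      ((∑ c, genusFF k (Fk c) : ℕ) : ℤ) + Fintype.card ι + 1 := by
    exact_mod_cast h4
  rw [h5] at h6
  have h7 : (Module.finrank k (graphRR G.src G.tgt G.s₁ G.s₂ (fun c => m • G.R c)) : ℤ) ≤
      (ell (m • G.D₀) : ℤ) := by
    omega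
  exact_mod_cast h7

/-- **(LIFT)**, elementwise. -/
theorem GraphSeed.exists_lift_of [Nonempty κ] (hRR : G.HasRRDim) {m : ℕ} (hm : G.m₀ ≤ m)
    {y : ∀ c, Fk c} (hy : y ∈ graphRR G.src G.tgt G.s₁ G.s₂ (fun c => m • G.R c)) :
    ∃ f : F, G.toGraphCore.IsInt (m • G.D₀) f ∧ G.toGraphCore.redAll f = y := by
  rw [← G.V_eq_of hRR hm] at hy
  exact (G.toGraphCore.mem_V_iff _).mp hy

/-- **(LIFT)** for a seed. -/
theorem GraphSeed.hasLift_of [Nonempty κ] (hRR : G.HasRRDim) : G.HasLift :=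
  ⟨G.m₀, fun _ hm _ hy => G.exists_lift_of hRR hm hy⟩

omit [Fintype κ] [Fintype ι] in
/-- `graphRR` only depends on the nodes. -/
theorem graphRR_congr {src src' tgt tgt' : ι → κ} {s₁ : ∀ i : ι, Place k (Fk (src i))}
    {s₁' : ∀ i : ι, Place k (Fk (src' i))} {s₂ : ∀ i : ι, Place k (Fk (tgt i))}
    {s₂' : ∀ i : ι, Place k (Fk (tgt' i))} (hsrc : src = src') (htgt : tgt = tgt')
    (hs₁ : HEq s₁ s₁') (hs₂ : HEq s₂ s₂') (R : ∀ c, Divisor k (Fk c)) :
    graphRR src tgt s₁ s₂ R = graphRR src' tgt' s₁' s₂' R := by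
  subst hsrc htgt
  obtain rfl := eq_of_heq hs₁
  obtain rfl := eq_of_heq hs₂
  rfl

/-- (LIFT) in the form of `GraphSetup.HasLift`, for a package with the data of the seed. -/
theorem GraphSeed.setup_hasLift_of [Nonempty κ] (hRR : G.HasRRDim)
    (N : GraphSetup K F k κ Fk ι) (hS : N.S = G.S) (hsrc : N.src = G.src)
    (htgt : N.tgt = G.tgt) (hs₁ : HEq N.s₁ G.s₁) (hs₂ : HEq N.s₂ G.s₂) :
    N.HasLift G.D₀ G.R := by
  refine ⟨G.m₀, fun m hm y hy => ?_⟩
  rw [graphRR_congr hsrc htgt hs₁ hs₂] at hy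
  obtain ⟨f, hf, hfe⟩ := G.exists_lift_of hRR hm hy
  rw [hS]
  exact ⟨f, hf.1, hf.2, fun c => congrFun hfe c⟩

end Fermat.Agent.BadRedG
end
end MergeWrap_Lib_BadRed_Graph_S1
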