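import Mathlib
import Fermat.Agent.MU.Lib.BadRed.Graph.Setup

section MergeWrap_Lib_BadRed_Graph_NSDef -- from Lib/BadRed/Graph/NSDef.lean

set_option autoImplicit false

/-!
# Cluster G (S36), G-KEY: the graph "non-special generic points" package `GraphNS` and the
statements of the sub-packages of the graph KEY LEMMA (helper7; port of `Nodal/NSDef.lean`)

* `tupOrd Q y` : the order of the tuple `y = (y_c)_c` at a point `Q = ⟨c, Q_c⟩` of the special fibre;
* `GraphSetup.IsNodalFn y` : the tuple is regular at all the branches and takes the same value on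
  the two branches of every node;
* `GraphNS N g` : the graph analogue of `Fermat.Agent.BadRed.NodalNS`;
* `GraphJacobiStatement` : Jacobi inversion in the kernel of reduction;
* `GraphMainStatement` : `m (∑ P i - ∑ R i)` principal, `P i` in the disc of `Rb i` ⇒ `P i = R i`;
* `GraphKeyOfNS` : the KEY LEMMA with `GraphNS` as a hypothesis;
* `graphKeyOfNS_of_steps` : the KEY LEMMA from its two steps.
-/

noncomputable section

open AlgebraicCurve Fermat.Agent.RR Fermat.Agent.Deuring

namespace Fermat.Agent.BadRedG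

open Fermat.Agent.BadRed

variable {K F k : Type*} [Field K] [Field F] [Algebra K F] [Field k]
  {κ : Type*} {Fk : κ → Type*} [∀ c, Field (Fk c)] [∀ c, Algebra k (Fk c)] {ι : Type*}

/-- the order of the tuple of functions `y` at a point of the special fibre `⊔_c C_c`. -/
def tupOrd (Q : Σ c, Place k (Fk c)) (y : ∀ c, Fk c) : ℤ := Q.2.ord (y Q.1)

@[simp] theorem tupOrd_mk (c : κ) (Q : Place k (Fk c)) (y : ∀ c, Fk c) :
    tupOrd (⟨c, Q⟩ : Σ c, Place k (Fk c)) y = Q.ord (y c) := rfl

/-- the tuple of the reductions of an element of `F`. -/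
def GraphSetup.redAll (N : GraphSetup K F k κ Fk ι) (f : F) : ∀ c, Fk c :=
  fun c => (N.S c).red f

@[simp] theorem GraphSetup.redAll_apply (N : GraphSetup K F k κ Fk ι) (f : F) (c : κ) :
    N.redAll f c = (N.S c).red f := rfl

/-- nodal tuples: regular at all the branches, equal values on the two branches of every
node. -/
def GraphSetup.IsNodalFn (N : GraphSetup K F k κ Fk ι) (y : ∀ c, Fk c) : Prop :=
  ∀ i, 0 ≤ (N.s₁ i).ord (y (N.src i)) ∧ 0 ≤ (N.s₂ i).ord (y (N.tgt i)) ∧
    ∃ a : k, ValAt (N.s₁ i) (y (N.src i)) a ∧ ValAt (N.s₂ i) (y (N.tgt i)) a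

/-- `Q` is a smooth point of the special fibre (not a branch of a node). -/
def GraphSetup.IsSmooth (N : GraphSetup K F k κ Fk ι) (Q : Σ c, Place k (Fk c)) : Prop :=
  (∀ i, Q ≠ ⟨N.src i, N.s₁ i⟩) ∧ (∀ i, Q ≠ ⟨N.tgt i, N.s₂ i⟩)

/-- The graph "non-special generic points" package: `g` distinct smooth points `Rb i` of the
special fibre, lifts `R i`, parameters `t i` (units of ALL the valuation rings) and an ordinary
base point `P0`. -/
structure GraphNS (N : GraphSetup K F k κ Fk ι) (g : ℕ) where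
  Rb : Fin g → Σ c, Place k (Fk c)
  Rb_inj : Function.Injective Rb
  R : Fin g → Place K F
  r_R : ∀ i, N.r (R i) = some (Rb i)
  t : Fin g → F
  t_mem : ∀ i c, t i ∈ (N.S c).Ov
  /-- `t i` is a unit of every valuation ring -/
  t_red : ∀ i c, (N.S c).red (t i) ≠ 0
  /-- the reduction of `t i` (on the component of `Rb i`) is a local parameter at `Rb i` -/
  ord_t_self : ∀ i, tupOrd (Rb i) (N.redAll (t i)) = 1
  /-- the reduction of `t i` is a unit at `Rb j`, `j ≠ i` -/
  ord_t_other : ∀ i j, i ≠ j → tupOrd (Rb j) (N.redAll (t i)) = 0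
  /-- `t i` has no pole in the residue discs of the `Rb j` -/
  t_reg : ∀ i j P, N.r P = some (Rb j) → 0 ≤ P.ord (t i)
  /-- `t i` vanishes at `R i` -/
  t_R : ∀ i, 0 < (R i).ord (t i)
  /-- nodal tuples with at most simple poles at the `Rb i` are constant -/
  nonspecial : ∀ y : ∀ c, Fk c, N.IsNodalFn y →
    (∀ Q : Σ c, Place k (Fk c), (∀ i, Rb i ≠ Q) → 0 ≤ tupOrd Q y) →
    (∀ i, -1 ≤ tupOrd (Rb i) y) →
    ∃ a : k, ∀ c, y c = algebraMap k (Fk c) a
  /-- an ordinary base point outside the discs -/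
  P0 : Place K F
  P0_ord : N.IsOrd P0
  r_P0 : ∀ i, N.r P0 ≠ some (Rb i)

/-- **graph Jacobi inversion**: a divisor of degree `0` in the kernel of reduction is linearly
equivalent to `∑ P i - ∑ R i` with `P i` in the residue disc of `Rb i`. -/
def GraphJacobiStatement (N : GraphSetup K F k κ Fk ι) (g : ℕ) (NS : GraphNS N g) : Prop :=
  genusFF K F = g → ∀ D : Divisor K F, Divisor.degree D = 0 → N.RedTrivial D →
    ∃ (φ : F) (P : Fin g → Place K F), φ ≠ 0 ∧ (∀ i, N.r (P i) = some (NS.Rb i)) ∧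
      ∀ v : Place K F, D v + v.ord φ =
        ∑ i, (Finsupp.single (P i) (1 : ℤ) v - Finsupp.single (NS.R i) (1 : ℤ) v)

/-- **the main step**: if `u₀` has divisor `m * ∑ (P i - R i)` with `P i` in the residue disc of
`Rb i` and `m` a unit of `A`, then `P i = R i` for all `i`. -/
def GraphMainStatement (N : GraphSetup K F k κ Fk ι) (g : ℕ) (NS : GraphNS N g) : Prop :=
  ∀ m : ℕ, (m : K) ≠ 0 → ∀ c₀ : κ, ((m : K))⁻¹ ∈ (N.S c₀).A →
    ∀ P : Fin g → Place K F, (∀ i, N.r (P i) = some (NS.Rb i)) →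
    ∀ u₀ : F, u₀ ≠ 0 →
      (∀ v : Place K F, v.ord u₀ =
        m * ∑ i, (Finsupp.single (P i) (1 : ℤ) v - Finsupp.single (NS.R i) (1 : ℤ) v)) →
      ∀ i, P i = NS.R i

/-- the conclusion of the graph KEY LEMMA. -/
def GraphKeyConcl (N : GraphSetup K F k κ Fk ι) : Prop :=
  ∀ m : ℕ, (m : K) ≠ 0 → ∀ c₀ : κ, ((m : K))⁻¹ ∈ (N.S c₀).A →
    ∀ D : Divisor K F, Divisor.degree D = 0 → N.RedTrivial D →
      (m • D) ∈ Divisor.principal (K := K) (F := F) →
      D ∈ Divisor.principal (K := K) (F := F)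

/-- **the graph KEY LEMMA, with `GraphNS` as a hypothesis** (no genus relation needed here: it is
used to produce `GraphNS`). -/
def GraphKeyOfNS (N : GraphSetup K F k κ Fk ι) : Prop :=
  Nonempty (GraphNS N (genusFF K F)) → GraphKeyConcl N

/-- the KEY LEMMA from its two steps (`key_lemma` of S18, verbatim). -/
theorem graphKeyOfNS_of_steps (N : GraphSetup K F k κ Fk ι)
    (hJ : ∀ NS : GraphNS N (genusFF K F), GraphJacobiStatement N _ NS)
    (hM : ∀ NS : GraphNS N (genusFF K F), GraphMainStatement N _ NS) : GraphKeyOfNS N := by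
  rintro ⟨NS⟩ m hm0 c₀ hmA D hdeg hred hmD
  obtain ⟨φ, P, hφ, hP, hE⟩ := hJ NS rfl D hdeg hred
  obtain ⟨f₁, hf₁, hf₁d⟩ := hmD
  have hmain := hM NS m hm0 c₀ hmA P hP (f₁ * φ ^ m) (mul_ne_zero hf₁ (pow_ne_zero _ hφ))
    (fun v => by
      rw [v.ord_mul hf₁ (pow_ne_zero _ hφ), ← hf₁d, ← hE v, Finsupp.smul_apply]
      have hpow : ∀ n : ℕ, v.ord (φ ^ n) = n * v.ord φ := by
        intro n
        induction n with
        | zero => simp
        | succ k ihk => rw [pow_succ, v.ord_mul (pow_ne_zero _ hφ) hφ, ihk]; push_cast; ring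
      rw [hpow m]
      simp only [nsmul_eq_mul]
      ring)
  refine ⟨φ⁻¹, inv_ne_zero hφ, fun v => ?_⟩
  rw [v.ord_inv]
  have h := hE v
  rw [Finset.sum_eq_zero (fun i _ => by rw [hmain i, sub_self])] at h
  omega

/-- the graph KEY LEMMA (in the form of `GraphKeyStatement`) from a `GraphNS`. -/
theorem graphKeyStatement_of_ns [Fintype κ] [Fintype ι] (N : GraphSetup K F k κ Fk ι)
    (hK : GraphKeyOfNS N) (hNS : N.GenusRel → Nonempty (GraphNS N (genusFF K F))) :
    GraphKeyStatement N :=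
  fun hg => hK (hNS hg)

end Fermat.Agent.BadRedG
end
end MergeWrap_Lib_BadRed_Graph_NSDef
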