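import Mathlib
import Fermat.Agent.MU.Lib.BadRed.Graph.Setup
import Fermat.Agent.MU.Lib.BadRed.Nodal.RRNodal
import Fermat.Agent.MU.Lib.BadRed.Nodal.Gluing.Data

section MergeWrap_Lib_BadRed_Graph_GlueDefs -- from Lib/BadRed/Graph/GlueDefs.lean

set_option autoImplicit false

/-!
# Cluster G, abstract graph package: GLUING (seat G-GLUE, sub-architect helper92) -- interface

Graph version of cluster T's `Nodal/Gluing/*` (two components) for a `GraphSetup` with a family
`κ` of components.  Definitions and exact statements (`Prop`s) only; the proofs are the seats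
GL-JL, GL-TW, GL-PUSH, GL-VEQ, GL-ORD, GL-WD, GL-TORIC (one file each, see the board).

* `N.redDiv c D` : the reduction `r_* D` restricted to the component `c`;
* `N.UnitAtBranches H` : `H c ≠ 0` and `H` is a unit at both branches of every node;
* `N.IsNodalTuple y` : `y` takes the same value on both branches of every node;
* `gTwistRR N ζ R` : the twisted graph Riemann-Roch space
  `{y ∈ ∏ L(R c) : y (src i) (s₁ i) = ζ i * y (tgt i) (s₂ i)}`;
* `GlueData N n` : gluing data `(D, g, b, h)` of a `W₀`-divisor: `div g = n D`,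
  `red_c (g / b_c ^ n) = h_c ^ n`;  `d.A φ c = red_c (b_c φ) * h_c`;
  `d.InLam R φ` : `φ ∈ L(R + D)` and `b_c φ ∈ O_c` for all `c`;  `d.V R` the space of the `d.A φ`;
* `GBig N R` : big base divisors.

CORRECTION to the blueprint (helper92, helper82, helper3 independently): (G-WD) needs "no pole in
the annuli" and (G-TORIC) needs an ORDINARY divisor (on the Tate curve with two components there
is `g` with all reductions `1`, `div g = n ((α) - (β))`, `α, β` in one annulus, `α / β = ζ_n`,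
and `(α) - (β)` is not principal).
-/

noncomputable section

open AlgebraicCurve Fermat.Agent.RR Fermat.Agent.Deuring

namespace Fermat.Agent.BadRedG

open Fermat.Agent.BadRed

variable {K F k : Type*} [Field K] [Field F] [Algebra K F] [Field k]
  {κ : Type*} {Fk : κ → Type*} [∀ c, Field (Fk c)] [∀ c, Algebra k (Fk c)] {ι : Type*}

section Basic

variable (N : GraphSetup K F k κ Fk ι)

/-- the reduction `r_* D` of a divisor, restricted to the component `c`. -/
def GraphSetup.redDiv (c : κ) (D : Divisor K F) : Divisor k (Fk c) :=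
  Finsupp.comapDomain (fun Q => some (⟨c, Q⟩ : Σ c, Place k (Fk c))) (Finsupp.mapDomain N.r D)
    (fun _ _ _ _ h => eq_of_heq (Sigma.mk.inj (Option.some_injective _ h)).2)

theorem GraphSetup.redDiv_apply (c : κ) (D : Divisor K F) (Q : Place k (Fk c)) :
    N.redDiv c D Q = Finsupp.mapDomain N.r D (some ⟨c, Q⟩) := rfl

/-- `H c ≠ 0` for every component and `H` is a unit at both branches of every node. -/
def GraphSetup.UnitAtBranches (H : ∀ c, Fk c) : Prop :=
  (∀ c, H c ≠ 0) ∧ ∀ i, (N.s₁ i).ord (H (N.src i)) = 0 ∧ (N.s₂ i).ord (H (N.tgt i)) = 0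

/-- the tuple takes the same value on both branches of every node (in particular it is regular
there). -/
def GraphSetup.IsNodalTuple (y : ∀ c, Fk c) : Prop :=
  ∀ i, ∃ a : k, ValAt (N.s₁ i) (y (N.src i)) a ∧ ValAt (N.s₂ i) (y (N.tgt i)) a

/-- The twisted graph Riemann-Roch space: tuples `(y_c) ∈ ∏ L(R_c)` with
`y_{src i}(s₁ i) = ζ i * y_{tgt i}(s₂ i)` at every node. -/
def gTwistRR (ζ : ι → k) (R : ∀ c, Divisor k (Fk c)) : Submodule k (∀ c, Fk c) where
  carrier := {y | (∀ c, y c ∈ riemannRochSpace (R c)) ∧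
    ∀ i, ∃ a : k, ValAt (N.s₁ i) (y (N.src i)) (ζ i * a) ∧ ValAt (N.s₂ i) (y (N.tgt i)) a}
  add_mem' := by
    rintro x y ⟨hx1, hx3⟩ ⟨hy1, hy3⟩
    refine ⟨fun c => Submodule.add_mem _ (hx1 c) (hy1 c), fun i => ?_⟩
    obtain ⟨c, hc1, hc2⟩ := hx3 i
    obtain ⟨e, he1, he2⟩ := hy3 i
    refine ⟨c + e, ?_, hc2.add he2⟩
    rw [mul_add]
    exact hc1.add he1
  zero_mem' := ⟨fun c => Submodule.zero_mem _,
    fun i => ⟨0, by rw [mul_zero]; exact valAt_zero _, valAt_zero _⟩⟩
  smul_mem' := by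
    rintro a x ⟨hx1, hx3⟩
    refine ⟨fun c => Submodule.smul_mem _ a (hx1 c), fun i => ?_⟩
    obtain ⟨c, hc1, hc2⟩ := hx3 i
    refine ⟨a * c, ?_, hc2.smul a⟩
    rw [mul_left_comm]
    exact hc1.smul a

theorem mem_gTwistRR {ζ : ι → k} {R : ∀ c, Divisor k (Fk c)} {y : ∀ c, Fk c} :
    y ∈ gTwistRR N ζ R ↔ (∀ c, y c ∈ riemannRochSpace (R c)) ∧
      ∀ i, ∃ a : k, ValAt (N.s₁ i) (y (N.src i)) (ζ i * a) ∧ ValAt (N.s₂ i) (y (N.tgt i)) a :=
  Iff.rfl

/-- big base divisors: effective, ordinary, of large degree on every component. -/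
structure GBig [Fintype ι] (R : Divisor K F) : Prop where
  nonneg : 0 ≤ R
  ord : N.IsOrdDiv R
  deg : ∀ c, 2 * (genusFF k (Fk c) : ℤ) - 2 < Divisor.degree (N.redDiv c R) - Fintype.card ι

end Basic

/-- gluing data of a `W₀`-divisor for the exponent `n`: `div g = n D` and
`red_c (g / b_c ^ n) = h_c ^ n`. -/
structure GlueData (N : GraphSetup K F k κ Fk ι) (n : ℕ) where
  /-- the divisor -/
  D : Divisor K F
  /-- the Kummer generator: `n D = div g` -/
  g : F
  /-- `n`-th roots of the normalising constants -/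
  b : κ → K
  /-- `n`-th roots of the reductions -/
  h : ∀ c, Fk c
  hdeg : Divisor.degree D = 0
  hg : g ≠ 0
  hdiv : ∀ P : Place K F, P.ord g = n * D P
  hb : ∀ c, b c ≠ 0
  hh : ∀ c, h c ≠ 0
  hred : ∀ c, (N.S c).red (g / algebraMap K F (b c ^ n)) = h c ^ n

namespace GlueData

variable {N : GraphSetup K F k κ Fk ι} {n : ℕ} (d : GlueData N n)

/-- `A φ = (red_c (b_c φ) * h_c)_c`. -/
def A (φ : F) : ∀ c, Fk c := fun c => (N.S c).red (d.b c • φ) * d.h c

/-- `f φ = φ ^ n * g`: divisor `n (div φ + D)`, reductions `(A φ c) ^ n` after scaling by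
`b c ^ n`. -/
def f (φ : F) : F := φ ^ n * d.g

/-- the joint lattice of `L(R + D)`. -/
def InLam (R : Divisor K F) (φ : F) : Prop :=
  φ ∈ riemannRochSpace (R + d.D) ∧ ∀ c, d.b c • φ ∈ (N.S c).Ov

theorem A_zero : d.A 0 = 0 := by
  funext c
  simp [A, ValSetup.red_zero]

theorem inLam_zero (R : Divisor K F) : d.InLam R 0 :=
  ⟨zero_mem _, fun c => by rw [smul_zero]; exact zero_mem _⟩

theorem InLam.add {R : Divisor K F} {φ ψ : F} (hφ : d.InLam R φ) (hψ : d.InLam R ψ) :
    d.InLam R (φ + ψ) :=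
  ⟨add_mem hφ.1 hψ.1, fun c => by rw [smul_add]; exact add_mem (hφ.2 c) (hψ.2 c)⟩

theorem InLam.smul {R : Divisor K F} {φ : F} (hφ : d.InLam R φ) {a : K}
    (ha : ∀ c, a ∈ (N.S c).A) : d.InLam R (a • φ) :=
  ⟨Submodule.smul_mem _ a hφ.1, fun c => by
    rw [smul_comm]
    exact (N.S c).smul_mem (ha c) (hφ.2 c)⟩

theorem InLam.mono {R R' : Divisor K F} (hle : R ≤ R') {φ : F} (hφ : d.InLam R φ) :
    d.InLam R' φ :=
  ⟨riemannRochSpace_mono (add_le_add_left hle _) hφ.1, hφ.2⟩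

theorem A_add {R : Divisor K F} {φ ψ : F} (hφ : d.InLam R φ) (hψ : d.InLam R ψ) :
    d.A (φ + ψ) = d.A φ + d.A ψ := by
  funext c
  simp only [A, Pi.add_apply]
  rw [smul_add, (N.S c).red_add (hφ.2 c) (hψ.2 c), add_mul]

theorem A_smul {R : Divisor K F} {φ : F} (hφ : d.InLam R φ) {a : K} (c₀ : κ)
    (ha : a ∈ (N.S c₀).A) : d.A (a • φ) = (N.S c₀).res ⟨a, ha⟩ • d.A φ := by
  funext c
  simp only [A, Pi.smul_apply]
  have hac : a ∈ (N.S c).A := N.A_eq c₀ c ▸ ha
  rw [smul_comm, (N.S c).red_smul hac (hφ.2 c), smul_mul_assoc, N.res_eq c₀ c a ha hac]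

/-- the space `V_x(R)` of joint reductions. -/
def V [Nonempty κ] (R : Divisor K F) : Submodule k (∀ c, Fk c) where
  carrier := {y | ∃ φ, d.InLam R φ ∧ y = d.A φ}
  zero_mem' := ⟨0, d.inLam_zero R, d.A_zero.symm⟩
  add_mem' := by
    rintro _ _ ⟨φ, hφ, rfl⟩ ⟨ψ, hψ, rfl⟩
    exact ⟨φ + ψ, hφ.add d hψ, (d.A_add hφ hψ).symm⟩
  smul_mem' := by
    rintro c _ ⟨φ, hφ, rfl⟩
    obtain ⟨c₀⟩ := ‹Nonempty κ›
    obtain ⟨⟨a, ha⟩, rfl⟩ := (N.S c₀).res_surj c
    exact ⟨a • φ, hφ.smul d (fun c => N.A_eq c₀ c ▸ ha), (d.A_smul hφ c₀ ha).symm⟩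

theorem mem_V_iff [Nonempty κ] {R : Divisor K F} {y : ∀ c, Fk c} :
    y ∈ d.V R ↔ ∃ φ, d.InLam R φ ∧ y = d.A φ := Iff.rfl

end GlueData

/-! ### The exact statements of the seats -/

section Statements

variable (N : GraphSetup K F k κ Fk ι)

/-- **(GL-JL) joint lattice**: every finite-dimensional `W ⊆ F` has a `K`-basis in the scaled
lattice `{φ : b_c φ ∈ O_c for all c}` whose reduction tuples are `k`-linearly independent.
(Graph version of `Gluing.exists_joint_basis`; for three and more valuations by the Hahn-Banach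
argument for the max-norm, helper18.) -/
def GlueJointStatement : Prop :=
  ∀ (W : Submodule K F), FiniteDimensional K W → ∀ b : κ → K, (∀ c, b c ≠ 0) →
    ∃ (r : ℕ) (w : Fin r → F), Module.finrank K W = r ∧ (∀ j, w j ∈ W) ∧
      (∀ j c, b c • w j ∈ (N.S c).Ov) ∧
      LinearIndependent k (fun j => (fun c => (N.S c).red (b c • w j) : ∀ c, Fk c))

/-- **(GL-TW) dimension of the twisted graph Riemann-Roch space**: for `R_c` of large degree
without nodes in the support, `dim gTwistRR + #ι ≤ Σ_c ℓ(R_c)`. -/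
def GlueTwistDimStatement [Fintype κ] [Fintype ι] : Prop :=
  ∀ (ζ : ι → k) (R : ∀ c, Divisor k (Fk c)),
    (∀ i, R (N.src i) (N.s₁ i) = 0) → (∀ i, R (N.tgt i) (N.s₂ i) = 0) →
    (∀ c, 2 * (genusFF k (Fk c) : ℤ) - 2 < Divisor.degree (R c) - Fintype.card ι) →
    Module.Finite k (gTwistRR N ζ R) ∧
      Module.finrank k (gTwistRR N ζ R) + Fintype.card ι ≤ ∑ c, ell (R c)

/-- **(GL-GEN) generic elements**: for `ζ i ≠ 0` and big `R_c` there is an element of the
twisted space which is a unit at all the branches. -/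
def GlueGenericStatement [Fintype κ] [Fintype ι] : Prop :=
  ∀ (ζ : ι → k), (∀ i, ζ i ≠ 0) → ∀ (R : ∀ c, Divisor k (Fk c)), (∀ c, 0 ≤ R c) →
    (∀ i, R (N.src i) (N.s₁ i) = 0) → (∀ i, R (N.tgt i) (N.s₂ i) = 0) →
    (∀ c, 2 * (genusFF k (Fk c) : ℤ) - 2 < Divisor.degree (R c) - Fintype.card ι) →
    ∃ y : ∀ c, Fk c, y ∈ gTwistRR N ζ R ∧ (∀ c, y c ≠ 0) ∧
      ∀ i, ValAt (N.s₁ i) (y (N.src i)) (ζ i) ∧ ValAt (N.s₂ i) (y (N.tgt i)) 1

/-- **(GL-PUSH), pole bound**: the reductions of the elements of the joint lattice of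
`L(R + D)`, `R ≥ 0` ordinary, have poles bounded by `r_* R`. -/
def GluePushStatement : Prop :=
  ∀ (n : ℕ), n ≠ 0 → ∀ (d : GlueData N n) (R : Divisor K F), 0 ≤ R → N.IsOrdDiv R →
    ∀ φ : F, d.InLam R φ → ∀ c, d.A φ c ∈ riemannRochSpace (N.redDiv c R)

/-- **(GL-PUSH), node part**: the reductions of the elements of the joint lattice satisfy the
node condition up to `n`-th roots of unity. -/
def GlueNodeStatement : Prop :=
  ∀ (n : ℕ), n ≠ 0 → ∀ (d : GlueData N n) (R : Divisor K F), 0 ≤ R → N.IsOrdDiv R →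
    ∀ φ : F, d.InLam R φ → ∀ i, ∃ z : k, z ^ n = 1 ∧ ∃ a : k,
      ValAt (N.s₁ i) (d.A φ (N.src i)) (z * a) ∧ ValAt (N.s₂ i) (d.A φ (N.tgt i)) a

/-- **(GL-PUSH), ordinarity**: if the reductions of `φ` in the joint lattice are units at all
branches, then `div φ + D` is ordinary (degree count). -/
def GlueOrdOfGenericStatement [Fintype κ] [Fintype ι] : Prop :=
  ∀ (n : ℕ), n ≠ 0 → ∀ (d : GlueData N n) (R : Divisor K F), 0 ≤ R → N.IsOrdDiv R →
    ∀ φ : F, φ ≠ 0 → d.InLam R φ → N.UnitAtBranches (d.A φ) →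
      ∀ P : Place K F, P.ord φ + d.D P ≠ 0 → N.IsOrd P

/-- **(GL-VEQ)**: for big `R` the space `V_x(R)` IS a twisted graph Riemann-Roch space. -/
def GlueVEqStatement [Fintype κ] [Nonempty κ] [Fintype ι] : Prop :=
  N.GenusRel → ∀ (n : ℕ), n ≠ 0 → ∀ (d : GlueData N n) (R : Divisor K F), GBig N R →
    ∃ ζ : ι → k, (∀ i, ζ i ^ n = 1) ∧ d.V R = gTwistRR N ζ (fun c => N.redDiv c R)

/-- **(G-ORD)**, normal form: for every big base divisor `R` every `W₀`-datum has `φ ≠ 0` in the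
joint lattice of `L(R + D)` whose reductions are units at all the branches; then
`D' = D + div φ ≥ -R` is ORDINARY and `g' = φ ^ n * g` is integral for ALL valuations (one
constant) with `red_c g' = (A φ c) ^ n`. -/
def GraphOrdStatement [Fintype κ] [Nonempty κ] [Fintype ι] : Prop :=
  N.GenusRel → ∀ (n : ℕ), n ≠ 0 → ∀ (d : GlueData N n) (R : Divisor K F), GBig N R →
    ∃ φ : F, φ ≠ 0 ∧ d.InLam R φ ∧ N.UnitAtBranches (d.A φ) ∧
      ∀ P : Place K F, P.ord φ + d.D P ≠ 0 → N.IsOrd P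

/-- **(G-WD)** (well-definedness of the gluing cocycle; CORRECTED: `u` has NO POLE in the
annuli): if `e * u ^ n` has reductions `H_c ^ n` with `H` a unit at all branches, then
`(γ_c H_c)_c` is a nodal tuple for suitable constants `γ_c ≠ 0`, i.e. the cocycle
`i ↦ H_{src i}(s₁ i) / H_{tgt i}(s₂ i)` is the coboundary of `γ`. -/
def GraphWDStatement [Finite κ] : Prop :=
  ∀ (n : ℕ), n ≠ 0 → ∀ (u : F) (e : K), u ≠ 0 → e ≠ 0 →
    (∀ P : Place K F, P.ord u < 0 → N.IsOrd P) →
    ∀ (a : κ → K) (H : ∀ c, Fk c), (∀ c, a c ≠ 0) →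
      (∀ c, (N.S c).red (algebraMap K F e * u ^ n / algebraMap K F (a c)) = H c ^ n) →
      N.UnitAtBranches H →
      ∃ γ : κ → k, (∀ c, γ c ≠ 0) ∧ N.IsNodalTuple (fun c => γ c • H c)

/-- **(G-TORIC)** (injectivity of the gluing map; CORRECTED: `D` ordinary): if `div g = n D`,
`D` ordinary, and the reductions of `g` are the `n`-th powers of a NODAL tuple of functions which
are units at all the branches, then `D` is principal. -/
def GraphToricStatement [Fintype κ] [Fintype ι] : Prop :=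
  N.GenusRel → ∀ n : ℕ, (n : K) ≠ 0 → ∀ c₀ : κ, ((n : K))⁻¹ ∈ (N.S c₀).A →
    ∀ (g : F) (D : Divisor K F), g ≠ 0 → (∀ P : Place K F, P.ord g = n * D P) →
      N.IsOrdDiv D →
      ∀ (a : κ → K) (H : ∀ c, Fk c), (∀ c, a c ≠ 0) →
        (∀ c, (N.S c).red (g / algebraMap K F (a c)) = H c ^ n) →
        N.UnitAtBranches H → N.IsNodalTuple H →
        D ∈ Divisor.principal (K := K) (F := F)

end Statements

end Fermat.Agent.BadRedG
end
end MergeWrap_Lib_BadRed_Graph_GlueDefs
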