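import Mathlib
import Fermat.Agent.MU.Lib.BadRed.Graph.GlueDefs

section MergeWrap_Lib_BadRed_Graph_GlueWD -- from Lib/BadRed/Graph/GlueWD.lean

set_option autoImplicit false

/-!
# Cluster G, abstract graph package, seat GL-WD: well-definedness of the gluing cocycle

`graphWD : GraphWDStatement N` for an algebraically closed residue field and finitely many
components: directly from the node axiom and the connectedness of the graph.
-/

noncomputable section

open AlgebraicCurve Fermat.Agent.RR Fermat.Agent.Deuring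

namespace Fermat.Agent.BadRedG

open Fermat.Agent.BadRed Fermat.Agent.BadRed.Gluing

variable {K F k : Type*} [Field K] [Field F] [Algebra K F] [Field k]
  {κ : Type*} {Fk : κ → Type*} [∀ c, Field (Fk c)] [∀ c, Algebra k (Fk c)] {ι : Type*}

/-- over an algebraically closed field, an element whose `n`-th power is a constant is a
constant. -/
theorem wd_const_of_pow [IsAlgClosed k] {L : Type*} [Field L] [Algebra k L] {n : ℕ} (hn : n ≠ 0)
    {w : L} {δ : k} (h : w ^ n = algebraMap k L δ) : ∃ ε : k, w = algebraMap k L ε := by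
  have hint : IsIntegral k w := by
    refine ⟨Polynomial.X ^ n - Polynomial.C δ, Polynomial.monic_X_pow_sub_C δ hn, ?_⟩
    simp [h]
  have hirr := minpoly.irreducible hint
  have hdeg := IsAlgClosed.degree_eq_one_of_irreducible k hirr
  obtain ⟨ε, hε⟩ := minpoly.mem_range_of_degree_eq_one k w hdeg
  exact ⟨ε, hε.symm⟩

/-- order of a nonzero constant multiple. -/
theorem wd_ord_smul (P : Place K F) {c : K} (hc : c ≠ 0) (f : F) : P.ord (c • f) = P.ord f := by
  rcases eq_or_ne f 0 with rfl | hf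
  · rw [smul_zero]
  · rw [Algebra.smul_def, P.ord_mul ((map_ne_zero _).mpr hc) hf,
      Fermat.Agent.S24Res.ord_algebraMap, zero_add]

/-- **(G-WD)**. -/
theorem graphWD [IsAlgClosed k] [Finite κ] (N : GraphSetup K F k κ Fk ι) :
    GraphWDStatement N := by
  intro n hn u e hu he hpole a H ha hred hH
  rcases isEmpty_or_nonempty κ with hκ | hκ
  · exact ⟨fun c => (hκ.false c).elim, fun c => (hκ.false c).elim,
      fun i => (hκ.false (N.src i)).elim⟩
  -- scales
  have hsc : ∀ c, ∃ b : K, b ≠ 0 ∧ (N.S c).red (b⁻¹ • u) ≠ 0 := fun c => (N.S c).exists_scale hu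
  choose b hb hUb using hsc
  have hκ' := hκ
  obtain ⟨c₁⟩ := hκ
  -- a component with maximal scale
  obtain ⟨c₀, hc₀⟩ := Finite.exists_max (fun c => (N.S c₁).A.valuation (b c))
  have hAmem : ∀ c c' (x : K), x ∈ (N.S c).A → x ∈ (N.S c').A := fun c c' x hx => N.A_eq c c' ▸ hx
  -- the ratios
  have ht : ∀ c, (b c₀)⁻¹ * b c ∈ (N.S c).A := by
    intro c
    apply hAmem c₁ c
    rw [← ValuationSubring.valuation_le_one_iff, map_mul, map_inv₀]
    have h0 : (N.S c₁).A.valuation (b c₀) ≠ 0 := by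
      rw [Ne, map_eq_zero]
      exact hb c₀
    rw [inv_mul_le_iff₀ (lt_of_le_of_ne zero_le (Ne.symm h0)), mul_one]
    exact hc₀ c
  -- integrality of the scaled functions
  have hucmem : ∀ c, (b c)⁻¹ • u ∈ (N.S c).Ov := fun c => (N.S c).mem_of_red_ne_zero (hUb c)
  set f : F := (b c₀)⁻¹ • u with hf
  have hfeq : ∀ c, f = ((b c₀)⁻¹ * b c) • ((b c)⁻¹ • u) := by
    intro c
    rw [hf, smul_smul, mul_assoc, mul_inv_cancel₀ (hb c), mul_one]
  have hfmem : ∀ c, f ∈ (N.S c).Ov := fun c => by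
    rw [hfeq c]
    exact (N.S c).smul_mem (ht c) (hucmem c)
  have hfpole : ∀ P, N.r P = none → 0 ≤ P.ord f := by
    intro P hP
    by_contra hneg
    rw [not_le, hf, wd_ord_smul P (inv_ne_zero (hb c₀))] at hneg
    obtain ⟨Q, hQ⟩ := hpole P hneg
    rw [hP] at hQ
    cases hQ
  have hnode := N.node f hfmem hfpole
  -- reductions of `f`
  have hredf : ∀ c, (N.S c).red f = (N.S c).res ⟨_, ht c⟩ • (N.S c).red ((b c)⁻¹ • u) := by
    intro c
    conv_lhs => rw [hfeq c]
    exact (N.S c).red_smul (ht c) (hucmem c)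
  -- `U_c = ε_c H_c`
  have hUH : ∀ c, ∃ ε : k, ε ≠ 0 ∧ (N.S c).red ((b c)⁻¹ • u) = ε • H c := by
    intro c
    set G : F := algebraMap K F e * u ^ n / algebraMap K F (a c) with hG
    have hGred : (N.S c).red G ≠ 0 := by
      rw [hred c]
      exact pow_ne_zero n (hH.1 c)
    have hGmem := (N.S c).mem_of_red_ne_zero hGred
    have hGinv := (N.S c).inv_mem_of_red_ne_zero hGred
    have hG0 := (N.S c).ne_zero_of_red_ne_zero hGred
    set t : K := a c / (e * b c ^ n) with htdef
    have hbn : b c ^ n ≠ 0 := pow_ne_zero n (hb c)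
    have hae : algebraMap K F e ≠ 0 := (map_ne_zero _).mpr he
    have haa : algebraMap K F (a c) ≠ 0 := (map_ne_zero _).mpr (ha c)
    have hab : algebraMap K F (b c) ≠ 0 := (map_ne_zero _).mpr (hb c)
    have e1 : ((b c)⁻¹ • u) ^ n = t • G := by
      rw [hG, htdef, Algebra.smul_def, Algebra.smul_def, map_div₀, map_mul, map_pow, map_inv₀,
        mul_pow, inv_pow]
      have hBn : algebraMap K F (b c) ^ n ≠ 0 := pow_ne_zero n hab
      field_simp
    have e2 : algebraMap K F t = ((b c)⁻¹ • u) ^ n * G⁻¹ := by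
      rw [e1, Algebra.smul_def, mul_assoc, mul_inv_cancel₀ hG0, mul_one]
    have htA : t ∈ (N.S c).A := by
      rw [← (N.S c).mem_Ov_iff, e2]
      exact mul_mem (pow_mem (hucmem c) n) hGinv
    have e3 : (N.S c).red ((b c)⁻¹ • u) ^ n = (N.S c).res ⟨t, htA⟩ • H c ^ n := by
      rw [← (N.S c).red_pow (hucmem c), e1, (N.S c).red_smul htA hGmem, hred c]
    set δ : k := (N.S c).res ⟨t, htA⟩ with hδ
    have hδ0 : δ ≠ 0 := by
      intro h0
      rw [h0, zero_smul] at e3
      exact hUb c (pow_eq_zero_iff hn |>.mp e3)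
    have e4 : ((N.S c).red ((b c)⁻¹ • u) / H c) ^ n = algebraMap k (Fk c) δ := by
      rw [div_pow, e3, Algebra.smul_def, mul_div_assoc, div_self (pow_ne_zero n (hH.1 c)),
        mul_one]
    obtain ⟨ε, hε⟩ := wd_const_of_pow hn e4
    refine ⟨ε, ?_, ?_⟩
    · rintro rfl
      rw [map_zero, div_eq_zero_iff] at hε
      rcases hε with h | h
      · exact hUb c h
      · exact hH.1 c h
    · rw [Algebra.smul_def ε (H c), ← hε, div_mul_cancel₀ _ (hH.1 c)]
  choose ε hε0 hεH using hUH
  -- the constants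
  set γ : κ → k := fun c => (N.S c).res ⟨_, ht c⟩ * ε c with hγ
  have hredγ : ∀ c, (N.S c).red f = γ c • H c := by
    intro c
    rw [hredf c, hεH c, smul_smul]
  -- the set of components where `f` is a unit
  have hclosed : ∀ i, N.src i ∈ {c | γ c ≠ 0} ↔ N.tgt i ∈ {c | γ c ≠ 0} := by
    intro i
    obtain ⟨-, -, x, hx1, hx2⟩ := hnode i
    rw [hredγ (N.src i)] at hx1
    rw [hredγ (N.tgt i)] at hx2
    simp only [Set.mem_ofPred_eq]
    constructor
    · intro h1 h2
      rw [h2, zero_smul] at hx2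
      have hx0 : x = 0 := hx2.unique (valAt_zero _)
      rw [hx0] at hx1
      have hv : VanAt (N.s₁ i) (γ (N.src i) • H (N.src i)) := (valAt_zero_right_iff _ _).mp hx1
      rcases hv with hv | hv
      · exact smul_ne_zero h1 (hH.1 _) hv
      · rw [wd_ord_smul _ h1, (hH.2 i).1] at hv
        exact lt_irrefl _ hv
    · intro h1 h2
      rw [h2, zero_smul] at hx1
      have hx0 : x = 0 := hx1.unique (valAt_zero _)
      rw [hx0] at hx2
      have hv : VanAt (N.s₂ i) (γ (N.tgt i) • H (N.tgt i)) := (valAt_zero_right_iff _ _).mp hx2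
      rcases hv with hv | hv
      · exact smul_ne_zero h1 (hH.1 _) hv
      · rw [wd_ord_smul _ h1, (hH.2 i).2] at hv
        exact lt_irrefl _ hv
  have hc₀mem : c₀ ∈ {c | γ c ≠ 0} := by
    simp only [Set.mem_ofPred_eq, hγ]
    refine mul_ne_zero ?_ (hε0 c₀)
    have h1 : (⟨(b c₀)⁻¹ * b c₀, ht c₀⟩ : (N.S c₀).A) = 1 := by
      apply Subtype.ext
      simp [inv_mul_cancel₀ (hb c₀)]
    rw [h1, map_one]
    exact one_ne_zero
  have hall : ∀ c, γ c ≠ 0 := by
    rcases N.conn _ hclosed with h | h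
    · rw [h] at hc₀mem
      exact (Set.notMem_empty _ hc₀mem).elim
    · intro c
      have : c ∈ {c | γ c ≠ 0} := by rw [h]; exact Set.mem_univ c
      exact this
  refine ⟨γ, hall, fun i => ?_⟩
  obtain ⟨-, -, x, hx1, hx2⟩ := hnode i
  rw [hredγ (N.src i)] at hx1
  rw [hredγ (N.tgt i)] at hx2
  exact ⟨x, hx1, hx2⟩

end Fermat.Agent.BadRedG
end
end MergeWrap_Lib_BadRed_Graph_GlueWD
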