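import Mathlib
import Fermat.Agent.MU.Lib.BadRed.Graph.Seed
import Fermat.Agent.MU.Lib.BadRed.Nodal.RRNodal

section MergeWrap_Lib_BadRed_Graph_NodeMatch -- from Lib/BadRed/Graph/NodeMatch.lean

set_option autoImplicit false
set_option linter.unusedSectionVars false

/-!
# Cluster G (S36), SEED: matching of the branches from the equality of the value multisets
(seat NODE-MATCH, helper82; step (3) of helper92's SEED note)

The multi-extension node theorem (`MultiNodeStatement`) says: for every admissible function `f`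
and every `a : k`, the weighted number of the points of the first family at which `red f` takes
the value `a` equals the weighted number for the second family.  Since a vector space over an
infinite field is not a finite union of proper subspaces, this equality for ALL admissible `f`
gives the equality of the weighted multisets of the EVALUATION HOMOMORPHISMS: no separating
functions are needed.

* `nmt_exists_separating` : finitely many linear forms are separated by one vector;
* `nmt_sum_eq_of_count` : abstract form (linear forms `e p` on a `k`-vector space);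
* `NmtAdm S 𝔏 Pts` : the admissible functions: integral and regular at the points of `Pts`, closed
  under `+` and under the multiplication by the elements of `A`;
* `NmtEq S 𝔏 p p'` : all admissible functions take the same value at `p` and `p'`;
* `nmt_class_sum` : the weighted numbers of points of the two families which are `NmtEq` to a
  given point agree;
* `nmt_exists_of_pos` : every point of the first family is `NmtEq` to a point of the second
  (positive weights);
* `nmt_exists_equiv` : for CONSTANT weights there is a bijection `σ` of the first family onto the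
  second with `NmtEq p (σ p)`.
-/

noncomputable section

open AlgebraicCurve Fermat.Agent.RR Fermat.Agent.Deuring

namespace Fermat.Agent.BadRedG

open Fermat.Agent.BadRed

/-! ### The abstract statement -/

section Abstract

variable {k : Type*} [Field k] [Infinite k] {V : Type*} [AddCommGroup V] [Module k V]

/-- finitely many linear forms are separated by one vector. -/
theorem nmt_exists_separating (s : Finset (V →ₗ[k] k)) :
    ∃ v : V, ∀ φ ∈ s, ∀ ψ ∈ s, φ ≠ ψ → φ v ≠ ψ v := by
  classical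
  let T : Finset (Subspace k V) := s.offDiag.image fun p => LinearMap.ker (p.1 - p.2)
  have hT : (⊤ : Subspace k V) ∉ T := by
    intro h
    obtain ⟨⟨φ, ψ⟩, hp, hker⟩ := Finset.mem_image.mp h
    rw [Finset.mem_offDiag] at hp
    apply hp.2.2
    have h0 : φ - ψ = 0 := LinearMap.ker_eq_top.mp hker
    exact sub_eq_zero.mp h0
  have hne := Subspace.biUnion_ne_univ_of_top_notMem hT
  obtain ⟨v, hv⟩ : ∃ v, v ∉ ⋃ p ∈ T, (p : Set V) := by
    by_contra hcon
    push Not at hcon
    exact hne (Set.eq_univ_of_forall hcon)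
  refine ⟨v, fun φ hφ ψ hψ hne' heq => hv ?_⟩
  simp only [Set.mem_iUnion]
  refine ⟨LinearMap.ker (φ - ψ),
    Finset.mem_image.mpr ⟨(φ, ψ), Finset.mem_offDiag.mpr ⟨hφ, hψ, hne'⟩, rfl⟩, ?_⟩
  show v ∈ LinearMap.ker (φ - ψ)
  rw [LinearMap.mem_ker, LinearMap.sub_apply, heq, sub_self]

open Classical in
/-- **equality of the weighted multisets of linear forms** from the equality of the weighted
multisets of the values on every vector. -/
theorem nmt_sum_eq_of_count {P : Type*} (e : P → V →ₗ[k] k) (PI PJ : Finset P) (w w' : P → ℤ)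
    (h : ∀ (v : V) (a : k), (∑ p ∈ PI, if e p v = a then w p else 0) =
      ∑ p ∈ PJ, if e p v = a then w' p else 0)
    (φ : V →ₗ[k] k) :
    (∑ p ∈ PI, if e p = φ then w p else 0) = ∑ p ∈ PJ, if e p = φ then w' p else 0 := by
  obtain ⟨v, hv⟩ := nmt_exists_separating (k := k) ((PI ∪ PJ).image e ∪ {φ})
  have key : ∀ p ∈ PI ∪ PJ, (e p v = φ v ↔ e p = φ) := by
    intro p hp
    constructor
    · intro h1
      by_contra hne
      exact hv (e p) (Finset.mem_union_left _ (Finset.mem_image_of_mem e hp)) φ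
        (Finset.mem_union_right _ (Finset.mem_singleton_self φ)) hne h1
    · intro h1
      rw [h1]
  have h1 := h v (φ v)
  have e1 : (∑ p ∈ PI, if e p v = φ v then w p else 0) = ∑ p ∈ PI, if e p = φ then w p else 0 :=
    Finset.sum_congr rfl fun p hp => by
      by_cases hc : e p = φ
      · rw [if_pos hc, if_pos ((key p (Finset.mem_union_left _ hp)).mpr hc)]
      · rw [if_neg hc, if_neg (fun hh => hc ((key p (Finset.mem_union_left _ hp)).mp hh))]
  have e2 : (∑ p ∈ PJ, if e p v = φ v then w' p else 0) =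
      ∑ p ∈ PJ, if e p = φ then w' p else 0 :=
    Finset.sum_congr rfl fun p hp => by
      by_cases hc : e p = φ
      · rw [if_pos hc, if_pos ((key p (Finset.mem_union_right _ hp)).mpr hc)]
      · rw [if_neg hc, if_neg (fun hh => hc ((key p (Finset.mem_union_right _ hp)).mp hh))]
  rw [← e1, ← e2]
  exact h1

end Abstract

/-! ### The form for a family of constant reductions -/

section Val

variable {K F k : Type*} [Field K] [Field F] [Algebra K F] [Field k]
  {κ : Type*} {Fk : κ → Type*} [∀ c, Field (Fk c)] [∀ c, Algebra k (Fk c)]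

/-- the admissible functions for the points of `Pts`. -/
structure NmtAdm (S : ∀ c : κ, ValSetup K F k (Fk c)) (𝔏 : Set F)
    (Pts : Finset (Σ c, Place k (Fk c))) : Prop where
  A_eq : ∀ c c' : κ, (S c).A = (S c').A
  res_eq : ∀ (c c' : κ) (x : K) (h : x ∈ (S c).A) (h' : x ∈ (S c').A),
    (S c).res ⟨x, h⟩ = (S c').res ⟨x, h'⟩
  zero_mem : (0 : F) ∈ 𝔏
  add_mem : ∀ f g : F, f ∈ 𝔏 → g ∈ 𝔏 → f + g ∈ 𝔏
  smul_mem : ∀ (c₀ : κ) (a : K), a ∈ (S c₀).A → ∀ f : F, f ∈ 𝔏 → a • f ∈ 𝔏
  int : ∀ f : F, f ∈ 𝔏 → ∀ p ∈ Pts, f ∈ (S p.1).Ov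
  reg : ∀ f : F, f ∈ 𝔏 → ∀ p ∈ Pts, ∃ a : k, ValAt p.2 ((S p.1).red f) a

/-- all the admissible functions take the same value at `p` and `p'`. -/
def NmtEq (S : ∀ c : κ, ValSetup K F k (Fk c)) (𝔏 : Set F) (p p' : Σ c, Place k (Fk c)) : Prop :=
  ∀ f : F, f ∈ 𝔏 → ∀ a : k, ValAt p.2 ((S p.1).red f) a ↔ ValAt p'.2 ((S p'.1).red f) a

variable {S : ∀ c : κ, ValSetup K F k (Fk c)} {𝔏 : Set F} {Pts : Finset (Σ c, Place k (Fk c))}

theorem NmtEq.refl (p : Σ c, Place k (Fk c)) : NmtEq S 𝔏 p p := fun _ _ _ => Iff.rfl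

theorem NmtEq.symm {p p' : Σ c, Place k (Fk c)} (h : NmtEq S 𝔏 p p') : NmtEq S 𝔏 p' p :=
  fun f hf a => (h f hf a).symm

theorem NmtEq.trans {p p' p'' : Σ c, Place k (Fk c)} (h : NmtEq S 𝔏 p p')
    (h' : NmtEq S 𝔏 p' p'') : NmtEq S 𝔏 p p'' :=
  fun f hf a => (h f hf a).trans (h' f hf a)

open Classical in
/-- the space of the value vectors of the admissible functions (extended by `0` outside
`Pts`). -/
def nmtVals (hadm : NmtAdm S 𝔏 Pts) (c₀ : κ) : Submodule k ((Σ c, Place k (Fk c)) → k) where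
  carrier := {v | ∃ f ∈ 𝔏, (∀ p ∈ Pts, ValAt p.2 ((S p.1).red f) (v p)) ∧ ∀ p, p ∉ Pts → v p = 0}
  zero_mem' := ⟨0, hadm.zero_mem, fun p _ => by
    rw [ValSetup.red_zero]
    exact valAt_zero _, fun _ _ => rfl⟩
  add_mem' := by
    rintro v v' ⟨f, hf, hfv, hf0⟩ ⟨g, hg, hgv, hg0⟩
    refine ⟨f + g, hadm.add_mem f g hf hg, fun p hp => ?_, fun p hp => ?_⟩
    · rw [(S p.1).red_add (hadm.int f hf p hp) (hadm.int g hg p hp)]
      exact (hfv p hp).add (hgv p hp)
    · rw [Pi.add_apply, hf0 p hp, hg0 p hp, add_zero]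
  smul_mem' := by
    rintro a v ⟨f, hf, hfv, hf0⟩
    obtain ⟨⟨α, hα⟩, rfl⟩ := (S c₀).res_surj a
    refine ⟨α • f, hadm.smul_mem c₀ α hα f hf, fun p hp => ?_, fun p hp => ?_⟩
    · have hαp : α ∈ (S p.1).A := hadm.A_eq c₀ p.1 ▸ hα
      rw [(S p.1).red_smul hαp (hadm.int f hf p hp), hadm.res_eq p.1 c₀ α hαp hα]
      exact (hfv p hp).smul _
    · rw [Pi.smul_apply, hf0 p hp, smul_zero]

/-- the evaluation at a point, as a linear form on the space of the value vectors. -/
def nmtEval (hadm : NmtAdm S 𝔏 Pts) (c₀ : κ) (p : Σ c, Place k (Fk c)) :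
    ↥(nmtVals hadm c₀) →ₗ[k] k :=
  (LinearMap.proj p).comp (nmtVals hadm c₀).subtype

theorem nmtEval_apply (hadm : NmtAdm S 𝔏 Pts) (c₀ : κ) (p : Σ c, Place k (Fk c))
    (v : ↥(nmtVals hadm c₀)) : nmtEval hadm c₀ p v = v.1 p := rfl

open Classical in
/-- the value vector of an admissible function. -/
theorem nmt_exists_vals (hadm : NmtAdm S 𝔏 Pts) (c₀ : κ) {f : F} (hf : f ∈ 𝔏) :
    ∃ v : ↥(nmtVals hadm c₀), ∀ p ∈ Pts, ValAt p.2 ((S p.1).red f) (v.1 p) := by
  have hex : ∀ p : Σ c, Place k (Fk c), ∃ a : k, p ∈ Pts → ValAt p.2 ((S p.1).red f) a := by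
    intro p
    by_cases hp : p ∈ Pts
    · obtain ⟨a, ha⟩ := hadm.reg f hf p hp
      exact ⟨a, fun _ => ha⟩
    · exact ⟨0, fun h => absurd h hp⟩
  choose a ha using hex
  refine ⟨⟨fun p => if p ∈ Pts then a p else 0, f, hf, fun p hp => ?_, fun p hp => ?_⟩,
    fun p hp => ?_⟩
  · show ValAt p.2 ((S p.1).red f) (if p ∈ Pts then a p else 0)
    rw [if_pos hp]
    exact ha p hp
  · show (if p ∈ Pts then a p else 0) = 0
    rw [if_neg hp]
  · show ValAt p.2 ((S p.1).red f) (if p ∈ Pts then a p else 0)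
    rw [if_pos hp]
    exact ha p hp

/-- equal evaluation forms = equal values of all the admissible functions. -/
theorem nmtEval_eq_iff (hadm : NmtAdm S 𝔏 Pts) (c₀ : κ) {p p' : Σ c, Place k (Fk c)}
    (hp : p ∈ Pts) (hp' : p' ∈ Pts) :
    nmtEval hadm c₀ p = nmtEval hadm c₀ p' ↔ NmtEq S 𝔏 p p' := by
  constructor
  · intro h f hf a
    obtain ⟨v, hv⟩ := nmt_exists_vals hadm c₀ hf
    have hvv : v.1 p = v.1 p' := by
      have := congrArg (fun φ => φ v) h
      simpa only [nmtEval_apply] using this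
    constructor
    · intro h1
      have e1 : v.1 p = a := ValAt.unique (hv p hp) h1
      have h2 := hv p' hp'
      rwa [← hvv, e1] at h2
    · intro h1
      have e1 : v.1 p' = a := ValAt.unique (hv p' hp') h1
      have h2 := hv p hp
      rwa [hvv, e1] at h2
  · intro h
    apply LinearMap.ext
    rintro ⟨v, f, hf, hfv, hf0⟩
    show v p = v p'
    exact ValAt.unique ((h f hf (v p)).mp (hfv p hp)) (hfv p' hp')

variable [Infinite k]

open Classical in
/-- **equality of the class sums**: the weighted number of the points of `PI` at which all the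
admissible functions take the same value as at `p₀` equals the corresponding number for `PJ`. -/
theorem nmt_class_sum (PI PJ : Finset (Σ c, Place k (Fk c))) (hadm : NmtAdm S 𝔏 (PI ∪ PJ))
    (c₀ : κ) (w w' : (Σ c, Place k (Fk c)) → ℤ)
    (hcount : ∀ f : F, f ∈ 𝔏 → ∀ a : k,
      (∑ p ∈ PI, if ValAt p.2 ((S p.1).red f) a then w p else 0) =
        ∑ p ∈ PJ, if ValAt p.2 ((S p.1).red f) a then w' p else 0)
    {p₀ : Σ c, Place k (Fk c)} (hp₀ : p₀ ∈ PI ∪ PJ) :
    (∑ p ∈ PI, if NmtEq S 𝔏 p p₀ then w p else 0) =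
      ∑ p ∈ PJ, if NmtEq S 𝔏 p p₀ then w' p else 0 := by
  have habs := nmt_sum_eq_of_count (k := k) (nmtEval hadm c₀) PI PJ w w' (fun v a => ?_)
    (nmtEval hadm c₀ p₀)
  · have e1 : (∑ p ∈ PI, if nmtEval hadm c₀ p = nmtEval hadm c₀ p₀ then w p else 0) =
        ∑ p ∈ PI, if NmtEq S 𝔏 p p₀ then w p else 0 :=
      Finset.sum_congr rfl fun p hp => if_congr
        (nmtEval_eq_iff hadm c₀ (Finset.mem_union_left _ hp) hp₀) rfl rfl
    have e2 : (∑ p ∈ PJ, if nmtEval hadm c₀ p = nmtEval hadm c₀ p₀ then w' p else 0) =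
        ∑ p ∈ PJ, if NmtEq S 𝔏 p p₀ then w' p else 0 :=
      Finset.sum_congr rfl fun p hp => if_congr
        (nmtEval_eq_iff hadm c₀ (Finset.mem_union_right _ hp) hp₀) rfl rfl
    rw [← e1, ← e2]
    exact habs
  · obtain ⟨v, f, hf, hfv, hf0⟩ := v
    have h1 := hcount f hf a
    have e1 : (∑ p ∈ PI, if ValAt p.2 ((S p.1).red f) a then w p else 0) =
        ∑ p ∈ PI, if v p = a then w p else 0 :=
      Finset.sum_congr rfl fun p hp => if_congr
        ⟨fun h => ValAt.unique (hfv p (Finset.mem_union_left _ hp)) h,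
          fun h => h ▸ hfv p (Finset.mem_union_left _ hp)⟩ rfl rfl
    have e2 : (∑ p ∈ PJ, if ValAt p.2 ((S p.1).red f) a then w' p else 0) =
        ∑ p ∈ PJ, if v p = a then w' p else 0 :=
      Finset.sum_congr rfl fun p hp => if_congr
        ⟨fun h => ValAt.unique (hfv p (Finset.mem_union_right _ hp)) h,
          fun h => h ▸ hfv p (Finset.mem_union_right _ hp)⟩ rfl rfl
    rw [e1, e2] at h1
    exact h1

open Classical in
/-- the count hypothesis on the space of the value vectors. -/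
theorem nmt_count_vals (PI PJ : Finset (Σ c, Place k (Fk c))) (hadm : NmtAdm S 𝔏 (PI ∪ PJ))
    (c₀ : κ) (w w' : (Σ c, Place k (Fk c)) → ℤ)
    (hcount : ∀ f : F, f ∈ 𝔏 → ∀ a : k,
      (∑ p ∈ PI, if ValAt p.2 ((S p.1).red f) a then w p else 0) =
        ∑ p ∈ PJ, if ValAt p.2 ((S p.1).red f) a then w' p else 0)
    (v : ↥(nmtVals hadm c₀)) (a : k) :
    (∑ p ∈ PI, if nmtEval hadm c₀ p v = a then w p else 0) =
      ∑ p ∈ PJ, if nmtEval hadm c₀ p v = a then w' p else 0 := by
  obtain ⟨v, f, hf, hfv, hf0⟩ := v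
  have h1 := hcount f hf a
  have e1 : (∑ p ∈ PI, if ValAt p.2 ((S p.1).red f) a then w p else 0) =
      ∑ p ∈ PI, if v p = a then w p else 0 :=
    Finset.sum_congr rfl fun p hp => if_congr
      ⟨fun h => ValAt.unique (hfv p (Finset.mem_union_left _ hp)) h,
        fun h => h ▸ hfv p (Finset.mem_union_left _ hp)⟩ rfl rfl
  have e2 : (∑ p ∈ PJ, if ValAt p.2 ((S p.1).red f) a then w' p else 0) =
      ∑ p ∈ PJ, if v p = a then w' p else 0 :=
    Finset.sum_congr rfl fun p hp => if_congr
      ⟨fun h => ValAt.unique (hfv p (Finset.mem_union_right _ hp)) h,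
        fun h => h ▸ hfv p (Finset.mem_union_right _ hp)⟩ rfl rfl
  rw [e1, e2] at h1
  exact h1

open Classical in
/-- **existence of a partner**: if the weights are `≥ 0` on `PI` and `w p₀ > 0`, `p₀ ∈ PI`, then
some point of `PJ` has the same values as `p₀`. -/
theorem nmt_exists_of_pos (PI PJ : Finset (Σ c, Place k (Fk c))) (hadm : NmtAdm S 𝔏 (PI ∪ PJ))
    (c₀ : κ) (w w' : (Σ c, Place k (Fk c)) → ℤ)
    (hcount : ∀ f : F, f ∈ 𝔏 → ∀ a : k,
      (∑ p ∈ PI, if ValAt p.2 ((S p.1).red f) a then w p else 0) =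
        ∑ p ∈ PJ, if ValAt p.2 ((S p.1).red f) a then w' p else 0)
    (hw : ∀ p ∈ PI, 0 ≤ w p) {p₀ : Σ c, Place k (Fk c)} (hp₀ : p₀ ∈ PI) (hw₀ : 0 < w p₀) :
    ∃ p ∈ PJ, NmtEq S 𝔏 p₀ p := by
  have h := nmt_class_sum PI PJ hadm c₀ w w' hcount (Finset.mem_union_left _ hp₀)
  have hpos : 0 < ∑ p ∈ PI, if NmtEq S 𝔏 p p₀ then w p else 0 := by
    have h1 : (if NmtEq S 𝔏 p₀ p₀ then w p₀ else 0) ≤
        ∑ p ∈ PI, if NmtEq S 𝔏 p p₀ then w p else 0 :=
      Finset.single_le_sum (f := fun p => if NmtEq S 𝔏 p p₀ then w p else 0)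
        (fun p hp => by
          show 0 ≤ if NmtEq S 𝔏 p p₀ then w p else 0
          split_ifs
          · exact hw p hp
          · exact le_refl _) hp₀
    rw [if_pos (NmtEq.refl p₀)] at h1
    omega
  rw [h] at hpos
  by_contra hcon
  push Not at hcon
  have hz : (∑ p ∈ PJ, if NmtEq S 𝔏 p p₀ then w' p else 0) = 0 :=
    Finset.sum_eq_zero fun p hp => if_neg (fun hh => hcon p hp hh.symm)
  omega

open Classical in
/-- **the matching for constant weights**: a bijection `σ` of `PI` onto `PJ` such that all the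
admissible functions take the same value at `p` and at `σ p`. -/
theorem nmt_exists_equiv (PI PJ : Finset (Σ c, Place k (Fk c))) (hadm : NmtAdm S 𝔏 (PI ∪ PJ))
    (c₀ : κ) (w₀ : ℤ) (hw₀ : w₀ ≠ 0)
    (hcount : ∀ f : F, f ∈ 𝔏 → ∀ a : k,
      (∑ p ∈ PI, if ValAt p.2 ((S p.1).red f) a then w₀ else 0) =
        ∑ p ∈ PJ, if ValAt p.2 ((S p.1).red f) a then w₀ else 0) :
    ∃ σ : {p // p ∈ PI} ≃ {p // p ∈ PJ}, ∀ p : {p // p ∈ PI}, NmtEq S 𝔏 p.1 (σ p).1 := by
  have hsum := fun φ => nmt_sum_eq_of_count (k := k) (nmtEval hadm c₀) PI PJ (fun _ => w₀)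
    (fun _ => w₀) (nmt_count_vals PI PJ hadm c₀ (fun _ => w₀) (fun _ => w₀) hcount) φ
  have hcard : ∀ φ, Fintype.card {a : {p // p ∈ PI} // nmtEval hadm c₀ a.1 = φ} =
      Fintype.card {b : {p // p ∈ PJ} // nmtEval hadm c₀ b.1 = φ} := by
    intro φ
    have h1 := hsum φ
    rw [← Finset.sum_filter, ← Finset.sum_filter, Finset.sum_const, Finset.sum_const,
      nsmul_eq_mul, nsmul_eq_mul] at h1
    have h2 : ((PI.filter fun p => nmtEval hadm c₀ p = φ).card : ℤ) =
        (PJ.filter fun p => nmtEval hadm c₀ p = φ).card :=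
      mul_right_cancel₀ hw₀ h1
    have h3 : (PI.filter fun p => nmtEval hadm c₀ p = φ).card =
        (PJ.filter fun p => nmtEval hadm c₀ p = φ).card := by exact_mod_cast h2
    have c1 : Fintype.card {a : {p // p ∈ PI} // nmtEval hadm c₀ a.1 = φ} =
        (PI.filter fun p => nmtEval hadm c₀ p = φ).card := by
      rw [Fintype.card_subtype]
      rw [← Finset.card_map (Function.Embedding.subtype _)]
      congr 1
      ext p
      simp only [Finset.mem_map, Finset.mem_filter, Finset.mem_univ, true_and,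
        Function.Embedding.coe_subtype, Subtype.exists, exists_and_right, exists_eq_right]
      constructor
      · rintro ⟨hp, h⟩
        exact ⟨hp, h⟩
      · rintro ⟨hp, h⟩
        exact ⟨hp, h⟩
    have c2 : Fintype.card {b : {p // p ∈ PJ} // nmtEval hadm c₀ b.1 = φ} =
        (PJ.filter fun p => nmtEval hadm c₀ p = φ).card := by
      rw [Fintype.card_subtype]
      rw [← Finset.card_map (Function.Embedding.subtype _)]
      congr 1
      ext p
      simp only [Finset.mem_map, Finset.mem_filter, Finset.mem_univ, true_and,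
        Function.Embedding.coe_subtype, Subtype.exists, exists_and_right, exists_eq_right]
      constructor
      · rintro ⟨hp, h⟩
        exact ⟨hp, h⟩
      · rintro ⟨hp, h⟩
        exact ⟨hp, h⟩
    rw [c1, c2, h3]
  let σ : {p // p ∈ PI} ≃ {p // p ∈ PJ} :=
    Equiv.ofFiberEquiv (f := fun a : {p // p ∈ PI} => nmtEval hadm c₀ a.1)
      (g := fun b : {p // p ∈ PJ} => nmtEval hadm c₀ b.1)
      (fun φ => Fintype.equivOfCardEq (hcard φ))
  refine ⟨σ, fun p => ?_⟩
  have h1 : nmtEval hadm c₀ (σ p).1 = nmtEval hadm c₀ p.1 :=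
    Equiv.ofFiberEquiv_map (f := fun a : {p // p ∈ PI} => nmtEval hadm c₀ a.1)
      (g := fun b : {p // p ∈ PJ} => nmtEval hadm c₀ b.1)
      (fun φ => Fintype.equivOfCardEq (hcard φ)) p
  exact (nmtEval_eq_iff hadm c₀ (Finset.mem_union_left _ p.2)
    (Finset.mem_union_right _ (σ p).2)).mp h1.symm

end Val

end Fermat.Agent.BadRedG
end
end MergeWrap_Lib_BadRed_Graph_NodeMatch
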