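import Mathlib
import Fermat.Agent.MU.Lib.BadRed.Mod.SeedNodeA
import Fermat.Agent.Lib.BadRed.FundIneq
import Fermat.Agent.MU.Lib.BadRed.Mod.SeedOfU
import Fermat.Agent.MU.Lib.BadRed.Graph.MultiNodeDefs
import Fermat.Agent.MU.Lib.RedTr.FundIdK

section MergeWrap_Lib_BadRed_Graph_NodeMultiAbs -- from Lib/BadRed/Graph/NodeMultiAbs.lean

set_option autoImplicit false
set_option linter.style.haveILetI false
set_option linter.unusedSectionVars false

noncomputable section

namespace Fermat.Agent.BadRed.NodeMulti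

open Matrix Polynomial

/-- the determinant of a block diagonal matrix with blocks of variable size. -/
theorem nm_det_blockDiagonal' {ι : Type*} [Fintype ι] [DecidableEq ι] {R : Type*}
    [CommRing R] {m' : ι → Type*} [∀ i, Fintype (m' i)] [∀ i, DecidableEq (m' i)]
    (d : ∀ i, Matrix (m' i) (m' i) R) :
    (Matrix.blockDiagonal' d).det = ∏ i, (d i).det := by
  classical
  letI : LinearOrder ι := LinearOrder.lift' (Fintype.equivFin ι) (Fintype.equivFin ι).injective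
  rw [(Matrix.blockTriangular_blockDiagonal' d).det_fintype]
  refine Finset.prod_congr rfl (fun k _ => ?_)
  rw [← Matrix.det_submatrix_equiv_self (Equiv.sigmaSubtype (β := m') k) (d k)]
  congr 1
  ext ⟨⟨i1, x⟩, hi⟩ ⟨⟨j1, y⟩, hj⟩
  simp only at hi hj
  subst hi
  subst hj
  simp [Matrix.toSquareBlock_def, Matrix.blockDiagonal'_apply_eq, Equiv.sigmaSubtype]

/-- the characteristic matrix of a block diagonal matrix. -/
theorem nm_charmatrix_blockDiagonal' {ι : Type*} [Fintype ι] [DecidableEq ι] {R : Type*}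
    [CommRing R] {m' : ι → Type*} [∀ i, Fintype (m' i)] [∀ i, DecidableEq (m' i)]
    (d : ∀ i, Matrix (m' i) (m' i) R) :
    (Matrix.blockDiagonal' d).charmatrix = Matrix.blockDiagonal' (fun i => (d i).charmatrix) := by
  ext ⟨i, x⟩ ⟨j, y⟩
  by_cases hij : i = j
  · subst hij
    rw [Matrix.blockDiagonal'_apply_eq]
    by_cases hxy : x = y
    · subst hxy
      rw [Matrix.charmatrix_apply_eq, Matrix.charmatrix_apply_eq, Matrix.blockDiagonal'_apply_eq]
    · have hne : (⟨i, x⟩ : Σ i, m' i) ≠ ⟨i, y⟩ := by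
        intro h
        exact hxy (eq_of_heq (Sigma.mk.inj h).2)
      rw [Matrix.charmatrix_apply_ne _ _ _ hne, Matrix.charmatrix_apply_ne _ _ _ hxy,
        Matrix.blockDiagonal'_apply_eq]
  · have hne : (⟨i, x⟩ : Σ i, m' i) ≠ ⟨j, y⟩ := fun h => hij (congrArg Sigma.fst h)
    rw [Matrix.blockDiagonal'_apply_ne _ _ _ hij, Matrix.charmatrix_apply_ne _ _ _ hne,
      Matrix.blockDiagonal'_apply_ne _ _ _ hij, map_zero, neg_zero]

/-- the characteristic polynomial of a block diagonal matrix. -/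
theorem nm_charpoly_blockDiagonal' {ι : Type*} [Fintype ι] [DecidableEq ι] {R : Type*}
    [CommRing R] {m' : ι → Type*} [∀ i, Fintype (m' i)] [∀ i, DecidableEq (m' i)]
    (d : ∀ i, Matrix (m' i) (m' i) R) :
    (Matrix.blockDiagonal' d).charpoly = ∏ i, (d i).charpoly := by
  unfold Matrix.charpoly
  rw [nm_charmatrix_blockDiagonal', nm_det_blockDiagonal']

section Multi

variable {E F : Type*} [Field E] [Field F] [Algebra E F]
  {ι : Type*} [Fintype ι] [DecidableEq ι]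
  {Ek : ι → Type*} [∀ i, Field (Ek i)]
  {Fk : ι → Type*} [∀ i, Field (Fk i)] [∀ i, Algebra (Ek i) (Fk i)]
  (OE : ValuationSubring E) (OF : ι → ValuationSubring F)
  (ρE : ∀ i, OE →+* Ek i) (ρF : ∀ i, OF i →+* Fk i)

/-- the hypotheses of the abstract lemma: several valuations over `OE`, residue fields of `OE`
depending on the valuation. -/
structure NMSetup : Prop where
  /-- `OF i ∩ E = OE` -/
  mem_iff : ∀ (i : ι) (y : E), algebraMap E F y ∈ OF i ↔ y ∈ OE
  /-- the residue maps are compatible -/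
  red_map : ∀ (i : ι) (y : E) (hy : y ∈ OE) (hy' : algebraMap E F y ∈ OF i),
    ρF i ⟨algebraMap E F y, hy'⟩ = algebraMap (Ek i) (Fk i) (ρE i ⟨y, hy⟩)
  /-- every `ρE i` kills the maximal ideal -/
  ker : ∀ (i : ι) (y : OE), ¬ IsUnit y → ρE i y = 0
  /-- joint lifts (weak approximation) -/
  lift : ∀ (i : ι) (β : Fk i), ∃ b : F, ∃ hb : ∀ l, b ∈ OF l,
    ρF i ⟨b, hb i⟩ = β ∧ ∀ l, l ≠ i → ρF l ⟨b, hb l⟩ = 0

variable {OE OF ρE ρF}

/-- a family of joint lifts of families `β i` of residues. -/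
structure NMJointLift {d : ι → ℕ} (β : ∀ i, Fin (d i) → Fk i) (b : (Σ i, Fin (d i)) → F) :
    Prop where
  mem : ∀ j l, b j ∈ OF l
  self : ∀ j (h : b j ∈ OF j.1), ρF j.1 ⟨b j, h⟩ = β j.1 j.2
  other : ∀ j l (h : b j ∈ OF l), l ≠ j.1 → ρF l ⟨b j, h⟩ = 0

theorem nm_exists_jointLift (H : NMSetup OE OF ρE ρF) {d : ι → ℕ}
    (β : ∀ i, Fin (d i) → Fk i) :
    ∃ b : (Σ i, Fin (d i)) → F, NMJointLift (OF := OF) (ρF := ρF) β b := by
  classical
  choose b hb hself hother using fun j : (Σ i, Fin (d i)) => H.lift j.1 (β j.1 j.2)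
  exact ⟨b, ⟨hb, fun j _ => hself j, fun j l _ hl => hother j l hl⟩⟩

/-- reduction at `i` of a combination with integral coefficients of joint lifts. -/
theorem nm_red_sum (H : NMSetup OE OF ρE ρF) {d : ι → ℕ}
    {β : ∀ i, Fin (d i) → Fk i} {b : (Σ i, Fin (d i)) → F}
    (hb : NMJointLift (OF := OF) (ρF := ρF) β b)
    (c : (Σ i, Fin (d i)) → E) (hc : ∀ j, c j ∈ OE) (s : F) (hs : s = ∑ j, c j • b j)
    (i : ι) (hsi : s ∈ OF i) :
    ρF i ⟨s, hsi⟩ = ∑ m : Fin (d i), ρE i ⟨c ⟨i, m⟩, hc _⟩ • β i m := by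
  classical
  have hmem' : ∀ j, algebraMap E F (c j) ∈ OF i := fun j => (H.mem_iff i _).mpr (hc j)
  have hs' : (⟨s, hsi⟩ : OF i)
      = ∑ j, (⟨algebraMap E F (c j), hmem' j⟩ : OF i) * ⟨b j, hb.mem j i⟩ := by
    apply Subtype.ext
    have h1 : ((∑ j, (⟨algebraMap E F (c j), hmem' j⟩ : OF i) * ⟨b j, hb.mem j i⟩ : OF i) : F)
        = ∑ j, (((⟨algebraMap E F (c j), hmem' j⟩ : OF i) * ⟨b j, hb.mem j i⟩ : OF i) : F) :=
      map_sum (OF i).subtype _ _
    rw [h1]
    show s = _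
    rw [hs]
    refine Finset.sum_congr rfl (fun j _ => ?_)
    rw [Algebra.smul_def]
    rfl
  rw [hs', map_sum, Fintype.sum_sigma]
  rw [Finset.sum_eq_single i]
  · refine Finset.sum_congr rfl (fun m _ => ?_)
    rw [map_mul, H.red_map i _ (hc _), hb.self ⟨i, m⟩ (hb.mem _ i), Algebra.smul_def]
  · intro l _ hl
    refine Finset.sum_eq_zero (fun m _ => ?_)
    rw [map_mul, hb.other ⟨l, m⟩ i (hb.mem _ i) (fun h => hl h.symm), mul_zero]
  · intro h
    exact absurd (Finset.mem_univ i) h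

/-- the core scaling argument. -/
theorem nm_core (H : NMSetup OE OF ρE ρF) {d : ι → ℕ}
    {β : ∀ i, Fin (d i) → Fk i} (hβ : ∀ i, LinearIndependent (Ek i) (β i))
    {b : (Σ i, Fin (d i)) → F} (hb : NMJointLift (OF := OF) (ρF := ρF) β b)
    (c : (Σ i, Fin (d i)) → E) (j₀ : Σ i, Fin (d i)) (hj₀ : c j₀ ≠ 0)
    (hmax : ∀ j, OE.valuation (c j) ≤ OE.valuation (c j₀))
    (s : F) (hsmem : s ∈ OF j₀.1) (hs : s = ∑ j, (c j / c j₀) • b j) :
    ρF j₀.1 ⟨s, hsmem⟩ ≠ 0 := by
  classical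
  intro h0
  have hmem : ∀ j, c j / c j₀ ∈ OE := by
    intro j
    rw [← OE.valuation_le_one_iff, map_div₀]
    exact div_le_one_of_le₀ (hmax j) zero_le
  have h1 := nm_red_sum H hb (fun j => c j / c j₀) hmem s hs j₀.1 hsmem
  rw [h0] at h1
  have h2 := Fintype.linearIndependent_iff.mp (hβ j₀.1) _ h1.symm j₀.2
  have h3 : (⟨c ⟨j₀.1, j₀.2⟩ / c j₀, hmem _⟩ : OE) = 1 := by
    apply Subtype.ext
    exact div_self hj₀
  rw [h3, map_one] at h2
  exact one_ne_zero h2

/-- joint lifts of independent residues are `E`-independent. -/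
theorem nm_linearIndependent (H : NMSetup OE OF ρE ρF) {d : ι → ℕ}
    {β : ∀ i, Fin (d i) → Fk i} (hβ : ∀ i, LinearIndependent (Ek i) (β i))
    {b : (Σ i, Fin (d i)) → F} (hb : NMJointLift (OF := OF) (ρF := ρF) β b) :
    LinearIndependent E b := by
  classical
  rw [Fintype.linearIndependent_iff]
  intro g hg
  by_contra hne
  push Not at hne
  obtain ⟨i0, hi0⟩ := hne
  have : Nonempty (Σ i, Fin (d i)) := ⟨i0⟩
  obtain ⟨j, hj⟩ := Finite.exists_max (fun i => OE.valuation (g i))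
  have hgj : g j ≠ 0 := by
    intro h0
    have h1 := hj i0
    simp only [h0, map_zero] at h1
    exact hi0 ((map_eq_zero _).mp (le_antisymm h1 zero_le))
  have h1 : ∑ i, (g i / g j) • b i = (g j)⁻¹ • ∑ i, g i • b i := by
    rw [Finset.smul_sum]
    refine Finset.sum_congr rfl (fun i _ => ?_)
    rw [smul_smul, div_eq_inv_mul]
  have h2 : (0 : F) = ∑ i, (g i / g j) • b i := by rw [h1, hg, smul_zero]
  refine nm_core H hβ hb g j hgj hj 0 (OF j.1).zero_mem h2 ?_
  exact map_zero (ρF j.1)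

/-- the coordinates of an element which is integral for all the valuations, with respect to
joint lifts of independent residues, are integral. -/
theorem nm_coord_mem (H : NMSetup OE OF ρE ρF) {d : ι → ℕ}
    {β : ∀ i, Fin (d i) → Fk i} (hβ : ∀ i, LinearIndependent (Ek i) (β i))
    {b : (Σ i, Fin (d i)) → F} (hb : NMJointLift (OF := OF) (ρF := ρF) β b)
    (c : (Σ i, Fin (d i)) → E) (t : F) (htm : ∀ l, t ∈ OF l)
    (ht : t = ∑ i, c i • b i) (i : Σ i, Fin (d i)) : c i ∈ OE := by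
  classical
  by_contra hne
  have : Nonempty (Σ i, Fin (d i)) := ⟨i⟩
  obtain ⟨j, hj⟩ := Finite.exists_max (fun i => OE.valuation (c i))
  have hi : 1 < OE.valuation (c i) := by
    rw [← OE.valuation_le_one_iff] at hne
    exact not_le.mp hne
  have hjv : 1 < OE.valuation (c j) := lt_of_lt_of_le hi (hj i)
  have hcj : c j ≠ 0 := by
    intro h0
    rw [h0, map_zero] at hjv
    exact not_lt.mpr zero_le hjv
  have hinv_lt : OE.valuation (c j)⁻¹ < 1 := by
    rw [map_inv₀]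
    exact inv_lt_one_of_one_lt₀ hjv
  have hinv : (c j)⁻¹ ∈ OE := (OE.valuation_le_one_iff _).mp hinv_lt.le
  have hnu : ¬ IsUnit (⟨(c j)⁻¹, hinv⟩ : OE) := by
    rw [ValuationSubring.valuation_eq_one_iff]
    exact hinv_lt.ne
  have hinv' : algebraMap E F (c j)⁻¹ ∈ OF j.1 := (H.mem_iff j.1 _).mpr hinv
  have hprod : algebraMap E F (c j)⁻¹ * t ∈ OF j.1 := (OF j.1).mul_mem _ _ hinv' (htm j.1)
  have h1 : ∑ i, (c i / c j) • b i = (c j)⁻¹ • ∑ i, c i • b i := by
    rw [Finset.smul_sum]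
    refine Finset.sum_congr rfl (fun i _ => ?_)
    rw [smul_smul, div_eq_inv_mul]
  have h2 : algebraMap E F (c j)⁻¹ * t = ∑ i, (c i / c j) • b i := by
    rw [h1, ← ht, Algebra.smul_def]
  refine nm_core H hβ hb c j hcj hj _ hprod h2 ?_
  have h3 : (⟨algebraMap E F (c j)⁻¹ * t, hprod⟩ : OF j.1)
      = ⟨algebraMap E F (c j)⁻¹, hinv'⟩ * ⟨t, htm j.1⟩ := rfl
  rw [h3, map_mul, H.red_map j.1 _ hinv, H.ker _ _ hnu, map_zero, zero_mul]

/-- **The abstract lemma.**  The characteristic polynomial of an element which is integral for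
all the valuations above `OE` has an integral model `P`, which is congruent modulo the maximal
ideal of `OE` to a product of monic integral polynomials `Pb i`; `Pb i` reduces at `i` to the
characteristic polynomial of the reduction at `i`. -/
theorem nm_charpoly_multi (H : NMSetup OE OF ρE ρF) [Module.Finite E F]
    [∀ i, Module.Finite (Ek i) (Fk i)]
    (hrank : Module.finrank E F ≤ ∑ i, Module.finrank (Ek i) (Fk i))
    (t : F) (ht : ∀ i, t ∈ OF i) :
    ∃ (P : OE[X]) (Pb : ι → OE[X]),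
      P.Monic ∧ P.natDegree = Module.finrank E F ∧
      P.map OE.subtype = (LinearMap.mulLeft E t).charpoly ∧
      (∀ i, (Pb i).Monic) ∧
      (∀ i, (Pb i).map (ρE i) = (LinearMap.mulLeft (Ek i) (ρF i ⟨t, ht i⟩)).charpoly) ∧
      ∀ i₀, P.map (ρE i₀) = ∏ i, (Pb i).map (ρE i₀) := by
  classical
  set d : ι → ℕ := fun i => Module.finrank (Ek i) (Fk i) with hd
  set βb : ∀ i, Module.Basis (Fin (d i)) (Ek i) (Fk i) :=
    fun i => Module.finBasis (Ek i) (Fk i) with hβb
  set β : ∀ i, Fin (d i) → Fk i := fun i => βb i with hβ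
  have hli : ∀ i, LinearIndependent (Ek i) (β i) := fun i => (βb i).linearIndependent
  obtain ⟨b, hb⟩ := nm_exists_jointLift H β
  have hliE := nm_linearIndependent H hli hb
  have hcard : Fintype.card (Σ i, Fin (d i)) = Module.finrank E F := by
    refine le_antisymm hliE.fintype_card_le_finrank ?_
    rw [Fintype.card_sigma]
    refine hrank.trans (le_of_eq ?_)
    refine Finset.sum_congr rfl (fun i _ => ?_)
    rw [Fintype.card_fin]
  have hne : Nonempty (Σ i, Fin (d i)) := by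
    rw [← Fintype.card_pos_iff, hcard]
    exact Module.finrank_pos
  set B : Module.Basis (Σ i, Fin (d i)) E F :=
    basisOfLinearIndependentOfCardEqFinrank hliE hcard with hB
  have hBb : ∀ j, B j = b j := by
    intro j
    rw [hB, coe_basisOfLinearIndependentOfCardEqFinrank]
  -- the multiplication matrix
  set M := Algebra.leftMulMatrix B t with hM
  have hMexp : ∀ j, t * b j = ∑ i, M i j • b i := by
    intro j
    have h1 := B.sum_repr (t * B j)
    rw [← hBb j, ← h1]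
    refine Finset.sum_congr rfl (fun i _ => ?_)
    rw [hM, Algebra.leftMulMatrix_eq_repr_mul, hBb i]
  have hMmem : ∀ i j, M i j ∈ OE := fun i j =>
    nm_coord_mem H hli hb (fun i => M i j) (t * b j)
      (fun l => (OF l).mul_mem _ _ (ht l) (hb.mem j l)) (hMexp j) i
  set M' : Matrix (Σ i, Fin (d i)) (Σ i, Fin (d i)) OE := fun i j => ⟨M i j, hMmem i j⟩ with hM'
  have hMM' : M'.map OE.subtype = M := by
    ext i j
    rfl
  -- the diagonal blocks
  set Mb : ∀ i, Matrix (Fin (d i)) (Fin (d i)) OE := fun i m m' => M' ⟨i, m⟩ ⟨i, m'⟩ with hMb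
  -- reduction at `i` of the row block `i`
  have hrow : ∀ (i : ι) (m : Fin (d i)) (l : ι) (m' : Fin (d l)),
      (i = l → ∀ h : i = l, ρE i (M' ⟨i, m⟩ ⟨l, m'⟩)
        = Algebra.leftMulMatrix (βb i) (ρF i ⟨t, ht i⟩) m (h ▸ m')) ∧
      (i ≠ l → ρE i (M' ⟨i, m⟩ ⟨l, m'⟩) = 0) := by
    intro i m l m'
    have htb : t * b ⟨l, m'⟩ ∈ OF i := (OF i).mul_mem _ _ (ht i) (hb.mem _ i)
    have hred := nm_red_sum H hb (fun j => M j ⟨l, m'⟩) (fun j => hMmem j ⟨l, m'⟩)
      (t * b ⟨l, m'⟩) (hMexp ⟨l, m'⟩) i htb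
    have hprod : (⟨t * b ⟨l, m'⟩, htb⟩ : OF i) = ⟨t, ht i⟩ * ⟨b ⟨l, m'⟩, hb.mem _ i⟩ := rfl
    rw [hprod, map_mul] at hred
    constructor
    · intro hil h
      subst h
      rw [Algebra.leftMulMatrix_eq_repr_mul]
      have h2 := hb.self ⟨i, m'⟩ (hb.mem _ i)
      simp only at h2
      rw [h2] at hred
      have h3 : (βb i).repr (ρF i ⟨t, ht i⟩ * (βb i) m') m
          = (βb i).repr (∑ m'' : Fin (d i), ρE i ⟨M ⟨i, m''⟩ ⟨i, m'⟩, hMmem _ _⟩ • (βb i) m'') m := by
        rw [← hred]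
      rw [h3, (βb i).repr_sum_self]
    · intro hil
      have h2 := hb.other ⟨l, m'⟩ i (hb.mem _ i) hil
      rw [h2, mul_zero] at hred
      exact Fintype.linearIndependent_iff.mp (hli i) _ hred.symm m
  have hdiag : ∀ i, (Mb i).map (ρE i) = Algebra.leftMulMatrix (βb i) (ρF i ⟨t, ht i⟩) := by
    intro i
    ext m m'
    rw [Matrix.map_apply]
    exact (hrow i m i m').1 rfl rfl
  have hoff : ∀ (i : ι) (m : Fin (d i)) (l : ι) (m' : Fin (d l)), i ≠ l →
      ¬ IsUnit (M' ⟨i, m⟩ ⟨l, m'⟩) := by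
    intro i m l m' hil hu
    have h1 := (hrow i m l m').2 hil
    have h2 : IsUnit (ρE i (M' ⟨i, m⟩ ⟨l, m'⟩)) := hu.map (ρE i)
    rw [h1] at h2
    exact not_isUnit_zero h2
  -- congruence modulo the maximal ideal
  have hblock : ∀ i₀, M'.map (ρE i₀) = Matrix.blockDiagonal' (fun i => (Mb i).map (ρE i₀)) := by
    intro i₀
    ext ⟨i, m⟩ ⟨l, m'⟩
    rw [Matrix.map_apply]
    by_cases hil : i = l
    · subst hil
      rw [Matrix.blockDiagonal'_apply_eq, Matrix.map_apply]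
    · rw [Matrix.blockDiagonal'_apply_ne _ _ _ hil]
      exact H.ker i₀ _ (hoff i m l m' hil)
  refine ⟨M'.charpoly, fun i => (Mb i).charpoly, Matrix.charpoly_monic M', ?_, ?_,
    fun i => Matrix.charpoly_monic _, fun i => ?_, fun i₀ => ?_⟩
  · rw [Matrix.charpoly_natDegree_eq_dim, hcard]
  · rw [← Matrix.charpoly_map, hMM', hM, Algebra.leftMulMatrix_apply, LinearMap.charpoly_toMatrix]
    rfl
  · rw [← Matrix.charpoly_map, hdiag i, Algebra.leftMulMatrix_apply,
      LinearMap.charpoly_toMatrix]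
    rfl
  · rw [← Matrix.charpoly_map, hblock i₀, nm_charpoly_blockDiagonal']
    refine Finset.prod_congr rfl (fun i _ => ?_)
    rw [Matrix.charpoly_map]

end Multi

end Fermat.Agent.BadRed.NodeMulti
end
end MergeWrap_Lib_BadRed_Graph_NodeMultiAbs

section MergeWrap_Lib_BadRed_Graph_NodeMultiGauss -- from Lib/BadRed/Graph/NodeMultiGauss.lean

set_option autoImplicit false
set_option linter.style.haveILetI false
set_option linter.unusedSectionVars false

noncomputable section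

open Polynomial IntermediateField

namespace Fermat.Agent.BadRed.NodeMulti

open Fermat.Agent.Deuring Fermat.Agent.BadRed.SeedNode

variable {K F k : Type*} [Field K] [Field F] [Algebra K F] [Field k]
  {ι : Type*} {Fk : ι → Type*} [∀ i, Field (Fk i)] [∀ i, Algebra k (Fk i)]

/-- A family of constant reductions over the same `(A, res)`, all extending the Gauss valuation
of `K(w)`, pairwise distinct. -/
structure GaussFamily (S : ∀ i, ValSetup K F k (Fk i)) (A : ValuationSubring K) (res : A →+* k)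
    (w : F) : Prop where
  hA : ∀ i, (S i).A = A
  hres : ∀ (i : ι) (c : K) (h : c ∈ (S i).A) (h' : c ∈ A), (S i).res ⟨c, h⟩ = res ⟨c, h'⟩
  mem : ∀ i, w ∈ (S i).Ov
  trans : ∀ i, Transcendental k ((S i).red w)
  inj : Function.Injective fun i => (S i).Ov

variable {S : ∀ i, ValSetup K F k (Fk i)} {A : ValuationSubring K} {res : A →+* k} {w : F}

theorem GaussFamily.mem_A (G : GaussFamily S A res w) (i : ι) {c : K} (hc : c ∈ A) :
    c ∈ (S i).A := by
  rw [G.hA i]
  exact hc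

theorem GaussFamily.res_surj (G : GaussFamily S A res w) (i : ι) : Function.Surjective res := by
  intro y
  obtain ⟨⟨c, hc⟩, h⟩ := (S i).res_surj y
  have hc' : c ∈ A := by
    rw [← G.hA i]
    exact hc
  exact ⟨⟨c, hc'⟩, by rw [← G.hres i c hc hc', h]⟩

/-- evaluation at `w` of a polynomial with coefficients in `A`. -/
theorem nm_red_aeval (G : GaussFamily S A res w) (i : ι) (p : A[X]) :
    aeval w (p.map (algebraMap A K)) ∈ (S i).Ov ∧
      (S i).red (aeval w (p.map (algebraMap A K))) = aeval ((S i).red w) (p.map res) := by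
  induction p using Polynomial.induction_on with
  | C a =>
    have haS : (a : K) ∈ (S i).A := G.mem_A i a.2
    have h1 : aeval w ((C a : A[X]).map (algebraMap A K)) = algebraMap K F (a : K) := by
      rw [Polynomial.map_C, aeval_C]
      rfl
    rw [h1, Polynomial.map_C, aeval_C]
    refine ⟨(S i).algebraMap_mem haS, ?_⟩
    rw [(S i).red_algebraMap haS, G.hres i _ haS a.2]
  | add p q hp hq =>
    rw [Polynomial.map_add, map_add, Polynomial.map_add, map_add]
    exact ⟨add_mem hp.1 hq.1, by rw [(S i).red_add hp.1 hq.1, hp.2, hq.2]⟩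
  | monomial n a ih =>
    have h1 : aeval w ((C a * X ^ (n + 1) : A[X]).map (algebraMap A K)) =
        aeval w ((C a * X ^ n : A[X]).map (algebraMap A K)) * w := by
      simp only [Polynomial.map_mul, Polynomial.map_pow, Polynomial.map_X, map_mul, map_pow,
        aeval_X, pow_succ, mul_assoc]
    have h2 : aeval ((S i).red w) ((C a * X ^ (n + 1) : A[X]).map res) =
        aeval ((S i).red w) ((C a * X ^ n : A[X]).map res) * (S i).red w := by
      simp only [Polynomial.map_mul, Polynomial.map_pow, Polynomial.map_X, map_mul, map_pow,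
        aeval_X, pow_succ, mul_assoc]
    rw [h1, h2]
    exact ⟨mul_mem ih.1 (G.mem i), by rw [(S i).red_mul ih.1 (G.mem i), ih.2]⟩

/-- a primitive polynomial takes a unit value at `w`. -/
theorem nm_red_aeval_ne_zero (G : GaussFamily S A res w) (i : ι) {p : A[X]}
    (hp : p.map res ≠ 0) : (S i).red (aeval w (p.map (algebraMap A K))) ≠ 0 := by
  rw [(nm_red_aeval G i p).2]
  intro h0
  exact hp ((transcendental_iff_injective.mp (G.trans i)) (by rw [h0, map_zero]))

/-- Gauss normalisation: a nonzero polynomial over `K` is a constant times a primitive polynomial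
over `A`. -/
theorem nm_normalize (A : ValuationSubring K) (res : A →+* k) {p : K[X]} (hp : p ≠ 0) :
    ∃ (c : K) (p₀ : A[X]), c ≠ 0 ∧ p = C c * p₀.map (algebraMap A K) ∧ p₀.map res ≠ 0 := by
  classical
  have hex : ∃ i : Fin (p.natDegree + 1), p.coeff i ≠ 0 :=
    ⟨⟨p.natDegree, Nat.lt_succ_self _⟩, by
      simpa using Polynomial.leadingCoeff_ne_zero.mpr hp⟩
  obtain ⟨i₀, hi₀, hall⟩ := exists_max_coeff A (fun i : Fin (p.natDegree + 1) => p.coeff i) hex
  set c : K := p.coeff i₀ with hc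
  have hmem : ∀ i : ℕ, p.coeff i * c⁻¹ ∈ A := by
    intro i
    by_cases hi : i < p.natDegree + 1
    · exact hall ⟨i, hi⟩
    · have : p.coeff i = 0 := Polynomial.coeff_eq_zero_of_natDegree_lt (by omega)
      rw [this, zero_mul]
      exact zero_mem _
  let p₀ : A[X] := ∑ i ∈ Finset.range (p.natDegree + 1),
    Polynomial.monomial i (⟨p.coeff i * c⁻¹, hmem i⟩ : A)
  have hmap : p₀.map (algebraMap A K) = C c⁻¹ * p := by
    have h1 : p₀.map (algebraMap A K) =
        ∑ i ∈ Finset.range (p.natDegree + 1), Polynomial.monomial i (p.coeff i * c⁻¹) := by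
      rw [Polynomial.map_sum]
      refine Finset.sum_congr rfl fun i _ => ?_
      rw [Polynomial.map_monomial]
      rfl
    rw [h1]
    conv_rhs => rw [Polynomial.as_sum_range' p (p.natDegree + 1) (Nat.lt_succ_self _)]
    rw [Finset.mul_sum]
    refine Finset.sum_congr rfl fun i _ => ?_
    rw [Polynomial.C_mul_monomial, mul_comm]
  refine ⟨c, p₀, hi₀, ?_, ?_⟩
  · rw [hmap, ← mul_assoc, ← Polynomial.C_mul, mul_inv_cancel₀ hi₀, Polynomial.C_1, one_mul]
  · intro h0
    have h1 : (p₀.map res).coeff i₀ = 1 := by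
      rw [Polynomial.coeff_map]
      have h2 : p₀.coeff i₀ = (⟨p.coeff i₀ * c⁻¹, hmem i₀⟩ : A) := by
        simp only [p₀, Polynomial.finsetSum_coeff, Polynomial.coeff_monomial]
        rw [Finset.sum_eq_single (i₀ : ℕ)]
        · simp
        · intro b _ hb
          simp [hb]
        · intro hb
          exact absurd (Finset.mem_range.mpr i₀.2) hb
      rw [h2]
      have h3 : (⟨p.coeff i₀ * c⁻¹, hmem i₀⟩ : A) = 1 := by
        apply Subtype.ext
        change p.coeff i₀ * c⁻¹ = 1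
        rw [← hc]
        exact mul_inv_cancel₀ hi₀
      rw [h3, map_one]
    rw [h0, Polynomial.coeff_zero] at h1
    exact zero_ne_one h1

/-- normal form of the elements of `K(w)`. -/
theorem nm_normal_form (A : ValuationSubring K) (res : A →+* k) {w a : F} (ha : a ∈ K⟮w⟯)
    (ha0 : a ≠ 0) :
    ∃ (c : K) (R T : A[X]), c ≠ 0 ∧ R.map res ≠ 0 ∧ T.map res ≠ 0 ∧
      a * aeval w (T.map (algebraMap A K)) = algebraMap K F c * aeval w (R.map (algebraMap A K)) ∧
      (aeval w (T.map (algebraMap A K)) ≠ 0 → a =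
        algebraMap K F c * (aeval w (R.map (algebraMap A K)) *
          (aeval w (T.map (algebraMap A K)))⁻¹)) := by
  obtain ⟨r, s, rfl⟩ := (IntermediateField.mem_adjoin_simple_iff K a).mp ha
  have hs : s ≠ 0 := by
    rintro rfl
    apply ha0
    rw [map_zero, div_zero]
  have hr : r ≠ 0 := by
    rintro rfl
    apply ha0
    rw [map_zero, zero_div]
  have hs0 : aeval w s ≠ 0 := by
    intro h
    apply ha0
    rw [h, div_zero]
  obtain ⟨c, r₀, hc, hr₀, hr₀'⟩ := nm_normalize A res hr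
  obtain ⟨d, s₀, hd, hs₀, hs₀'⟩ := nm_normalize A res hs
  have e1 : aeval w r = algebraMap K F c * aeval w (r₀.map (algebraMap A K)) := by
    conv_lhs => rw [hr₀]
    rw [map_mul, aeval_C]
  have e2 : aeval w s = algebraMap K F d * aeval w (s₀.map (algebraMap A K)) := by
    conv_lhs => rw [hs₀]
    rw [map_mul, aeval_C]
  have hd' : algebraMap K F d ≠ 0 := (_root_.map_ne_zero _).mpr hd
  have hT0 : aeval w (s₀.map (algebraMap A K)) ≠ 0 := by
    intro h
    apply hs0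
    rw [e2, h, mul_zero]
  refine ⟨c / d, r₀, s₀, div_ne_zero hc hd, hr₀', hs₀', ?_, fun _ => ?_⟩
  · rw [e1, e2, map_div₀]
    field_simp
  · rw [e1, e2, map_div₀]
    field_simp

section Indep

variable (G : GaussFamily S A res w)
include G

/-- `K(w) ∩ Ov i` is described by the constant of the normal form. -/
theorem nm_mem_iff_aux (i : ι) {a : F} {c : K} {R T : A[X]} (hR : R.map res ≠ 0)
    (hT : T.map res ≠ 0)
    (h : a * aeval w (T.map (algebraMap A K)) = algebraMap K F c * aeval w (R.map (algebraMap A K))) :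
    (a ∈ (S i).Ov ↔ c ∈ A) ∧
      ∀ hc : c ∈ A, (S i).red a * aeval ((S i).red w) (T.map res) =
        algebraMap k (Fk i) (res ⟨c, hc⟩) * aeval ((S i).red w) (R.map res) := by
  set Rv : F := aeval w (R.map (algebraMap A K)) with hRv
  set Tv : F := aeval w (T.map (algebraMap A K)) with hTv
  have hRm : Rv ∈ (S i).Ov := (nm_red_aeval G i R).1
  have hTm : Tv ∈ (S i).Ov := (nm_red_aeval G i T).1
  have hRred : (S i).red Rv ≠ 0 := nm_red_aeval_ne_zero G i hR
  have hTred : (S i).red Tv ≠ 0 := nm_red_aeval_ne_zero G i hT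
  have hR0 : Rv ≠ 0 := (S i).ne_zero_of_red_ne_zero hRred
  have hT0 : Tv ≠ 0 := (S i).ne_zero_of_red_ne_zero hTred
  have hRi : Rv⁻¹ ∈ (S i).Ov := (S i).inv_mem_of_red_ne_zero hRred
  have hTi : Tv⁻¹ ∈ (S i).Ov := (S i).inv_mem_of_red_ne_zero hTred
  have hiff : a ∈ (S i).Ov ↔ c ∈ A := by
    constructor
    · intro ha
      rw [← G.hA i, ← (S i).mem_Ov_iff]
      have e : algebraMap K F c = a * Tv * Rv⁻¹ := by
        rw [h, mul_assoc, mul_inv_cancel₀ hR0, mul_one]
      rw [e]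
      exact mul_mem (mul_mem ha hTm) hRi
    · intro hc
      have e : a = algebraMap K F c * Rv * Tv⁻¹ := by
        rw [← h, mul_assoc, mul_inv_cancel₀ hT0, mul_one]
      rw [e]
      exact mul_mem (mul_mem ((S i).algebraMap_mem (G.mem_A i hc)) hRm) hTi
  refine ⟨hiff, fun hc => ?_⟩
  have ha : a ∈ (S i).Ov := hiff.mpr hc
  have hcS : c ∈ (S i).A := G.mem_A i hc
  have h1 := congrArg (S i).red h
  rw [(S i).red_mul ha hTm, (S i).red_mul ((S i).algebraMap_mem hcS) hRm,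
    (S i).red_algebraMap hcS, G.hres i c hcS hc, (nm_red_aeval G i T).2,
    (nm_red_aeval G i R).2] at h1
  exact h1

/-- `K(w) ∩ Ov i` does not depend on `i`. -/
theorem nm_mem_iff {a : F} (ha : a ∈ K⟮w⟯) (i j : ι) : a ∈ (S i).Ov ↔ a ∈ (S j).Ov := by
  by_cases ha0 : a = 0
  · rw [ha0]
    exact ⟨fun _ => zero_mem _, fun _ => zero_mem _⟩
  obtain ⟨c, R, T, -, hR, hT, h, -⟩ := nm_normal_form A res ha ha0
  rw [(nm_mem_iff_aux G i hR hT h).1, (nm_mem_iff_aux G j hR hT h).1]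

/-- the maximal ideal of `K(w) ∩ Ov i` does not depend on `i`. -/
theorem nm_red_eq_zero_iff {a : F} (ha : a ∈ K⟮w⟯) (i j : ι) (hai : a ∈ (S i).Ov) :
    (S i).red a = 0 ↔ (S j).red a = 0 := by
  by_cases ha0 : a = 0
  · rw [ha0, (S i).red_zero, (S j).red_zero]
    exact ⟨fun _ => rfl, fun _ => rfl⟩
  obtain ⟨c, R, T, -, hR, hT, h, -⟩ := nm_normal_form A res ha ha0
  have hc : c ∈ A := (nm_mem_iff_aux G i hR hT h).1.mp hai
  have hi := (nm_mem_iff_aux G i hR hT h).2 hc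
  have hj := (nm_mem_iff_aux G j hR hT h).2 hc
  have hTi : aeval ((S i).red w) (T.map res) ≠ 0 := by
    rw [← (nm_red_aeval G i T).2]
    exact nm_red_aeval_ne_zero G i hT
  have hTj : aeval ((S j).red w) (T.map res) ≠ 0 := by
    rw [← (nm_red_aeval G j T).2]
    exact nm_red_aeval_ne_zero G j hT
  have hRi : aeval ((S i).red w) (R.map res) ≠ 0 := by
    rw [← (nm_red_aeval G i R).2]
    exact nm_red_aeval_ne_zero G i hR
  have hRj : aeval ((S j).red w) (R.map res) ≠ 0 := by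
    rw [← (nm_red_aeval G j R).2]
    exact nm_red_aeval_ne_zero G j hR
  have key : ∀ (l : ι), aeval ((S l).red w) (T.map res) ≠ 0 →
      aeval ((S l).red w) (R.map res) ≠ 0 →
      (S l).red a * aeval ((S l).red w) (T.map res) =
        algebraMap k (Fk l) (res ⟨c, hc⟩) * aeval ((S l).red w) (R.map res) →
      ((S l).red a = 0 ↔ res ⟨c, hc⟩ = 0) := by
    intro l hT' hR' hl
    constructor
    · intro h0
      rw [h0, zero_mul] at hl
      rcases mul_eq_zero.mp hl.symm with h1 | h1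
      · exact (map_eq_zero_iff _ (algebraMap k (Fk l)).injective).mp h1
      · exact absurd h1 hR'
    · intro h0
      rw [h0, map_zero, zero_mul] at hl
      rcases mul_eq_zero.mp hl with h1 | h1
      · exact h1
      · exact absurd h1 hT'
  rw [key i hTi hRi hi, key j hTj hRj hj]

/-- **canonical reduction**: the reduction of an element of `K(w) ∩ Ov` is the same rational
function of `w̄` for all the valuations of the family (polynomial case). -/
theorem nm_red_canonical {a : F} (ha : a ∈ K⟮w⟯) (i j : ι) (hai : a ∈ (S i).Ov) (P : k[X])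
    (h : (S i).red a = aeval ((S i).red w) P) : (S j).red a = aeval ((S j).red w) P := by
  obtain ⟨P', hP'⟩ := Polynomial.map_surjective res (G.res_surj i) P
  set b : F := aeval w (P'.map (algebraMap A K)) with hb
  have hbK : b ∈ K⟮w⟯ := by
    rw [hb, IntermediateField.mem_adjoin_simple_iff]
    exact ⟨P'.map (algebraMap A K), 1, by simp⟩
  have hbi := nm_red_aeval G i P'
  have hbj := nm_red_aeval G j P'
  have hdK : a - b ∈ K⟮w⟯ := sub_mem ha hbK
  have hdi : a - b ∈ (S i).Ov := sub_mem hai hbi.1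
  have hd0 : (S i).red (a - b) = 0 := by
    rw [(S i).red_sub hai hbi.1, h, hbi.2, hP', sub_self]
  have hdj : a - b ∈ (S j).Ov := (nm_mem_iff G hdK i j).mp hdi
  have hd0' : (S j).red (a - b) = 0 := (nm_red_eq_zero_iff G hdK i j hdi).mp hd0
  have haj : a ∈ (S j).Ov := (nm_mem_iff G ha i j).mp hai
  rw [(S j).red_sub haj hbj.1, hbj.2, hP', sub_eq_zero] at hd0'
  exact hd0'

end Indep

/-! ### joint lifts -/

section Lift

variable (G : GaussFamily S A res w)
include G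

/-- constants with pairwise distinct residues. -/
theorem nm_exists_consts [Infinite k] (i : ι) :
    ∃ c : ℕ → K, (∀ m, c m ∈ A) ∧
      ∀ m m', m ≠ m' → ∀ h : c m - c m' ∈ A, res ⟨c m - c m', h⟩ ≠ 0 := by
  classical
  have hsurj := G.res_surj i
  choose c hc using fun m : ℕ => hsurj (Infinite.natEmbedding k m)
  refine ⟨fun m => (c m : K), fun m => (c m).2, fun m m' hmm h => ?_⟩
  have e : (⟨(c m : K) - (c m' : K), h⟩ : A) = c m - c m' := rfl
  rw [e, map_sub, hc, hc, sub_ne_zero]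
  exact fun h' => hmm ((Infinite.natEmbedding k).injective h')

/-- an element of `Ov` with nonzero reduction is not in the maximal ideal. -/
theorem nm_notMem_nonunits_of_red_ne_zero (i : ι) {x : F} (hx : (S i).red x ≠ 0) :
    x ∉ (S i).Ov.nonunits := by
  intro h
  rw [ValuationSubring.mem_nonunits_iff] at h
  have hinv := (S i).inv_mem_of_red_ne_zero hx
  have hx0 := (S i).ne_zero_of_red_ne_zero hx
  have h1 : (S i).Ov.valuation x⁻¹ ≤ 1 := ((S i).Ov.valuation_le_one_iff _).mpr hinv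
  rw [map_inv₀] at h1
  have h2 : (S i).Ov.valuation x ≠ 0 := (_root_.map_ne_zero _).mpr hx0
  have h3 : 1 ≤ (S i).Ov.valuation x := by
    rwa [inv_le_one₀ (zero_lt_iff.mpr h2)] at h1
  exact absurd h (not_lt.mpr h3)

/-- an element of the maximal ideal reduces to `0`. -/
theorem nm_red_eq_zero_of_mem_nonunits (i : ι) {x : F} (hx : x ∈ (S i).Ov.nonunits) :
    ∃ h : x ∈ (S i).Ov, (S i).ρ ⟨x, h⟩ = 0 := by
  have hlt := (ValuationSubring.mem_nonunits_iff _).mp hx
  have hmem : x ∈ (S i).Ov := ((S i).Ov.valuation_le_one_iff _).mp hlt.le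
  refine ⟨hmem, ?_⟩
  rw [(S i).ρ_eq_zero_iff, ValuationSubring.valuation_eq_one_iff]
  exact hlt.ne

/-- the valuation rings of the family lie over the same valuation ring of `K(w)`. -/
theorem nm_liesOverV (i₀ i : ι) :
    LiesOverV ((S i₀).Ov.comap (algebraMap K⟮w⟯ F)) (S i).Ov := by
  unfold LiesOverV
  ext y
  exact nm_mem_iff G y.2 i i₀

/-- **joint lifts** (weak approximation in the residue fields). -/
theorem nm_joint_lift [Fintype ι] [Infinite k] [FiniteDimensional K⟮w⟯ F] (i : ι) (β : Fk i) :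
    ∃ b : F, ∃ hb : ∀ l, b ∈ (S l).Ov,
      (S i).ρ ⟨b, hb i⟩ = β ∧ ∀ l, l ≠ i → (S l).ρ ⟨b, hb l⟩ = 0 := by
  classical
  obtain ⟨c, hcA, hcu⟩ := nm_exists_consts G i
  set O : ι → ValuationSubring F := fun l => (S l).Ov with hO
  set cF : ℕ → F := fun m => algebraMap K F (c m) with hcF
  have hc : ∀ l m, cF m ∈ O l := fun l m => (S l).algebraMap_mem (G.mem_A l (hcA m))
  have hcu' : ∀ l m m', m ≠ m' → cF m - cF m' ∉ (O l).nonunits := by
    intro l m m' hmm
    apply nm_notMem_nonunits_of_red_ne_zero G l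
    have hd : c m - c m' ∈ A := sub_mem (hcA m) (hcA m')
    have e : cF m - cF m' = algebraMap K F (c m - c m') := by
      rw [hcF, map_sub]
    rw [e, (S l).red_algebraMap (G.mem_A l hd), G.hres l _ (G.mem_A l hd) hd]
    exact (_root_.map_ne_zero _).mpr (hcu m m' hmm hd)
  have hinc : ∀ l j, l ≠ j → ¬ O l ≤ O j := fun l j hlj =>
    not_le_of_liesOverV (nm_liesOverV G i l) (nm_liesOverV G i j) (fun h => hlj (G.inj h))
  obtain ⟨E, hE1, hE2, hE3⟩ := exists_idempotent_like O cF hinc hc hcu' i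
  obtain ⟨⟨b₀, hb₀m⟩, hb₀⟩ := (S i).ρ_surj β
  obtain ⟨s, hs1, hs2, hs3⟩ := exists_common_denominator O cF hc hcu' i
    (fun _ : Unit => b₀) (fun _ => hb₀m)
  have hsb : ∀ l, s * b₀ ∈ O l := fun l => hs3 () l
  set s' : F := s * E + (1 - E) with hs'
  have hs'mem : ∀ l, s' ∈ O l := fun l =>
    add_mem (mul_mem (hs1 l) (hE1 l)) (sub_mem (one_mem _) (hE1 l))
  have h1E : (1 - E) ∈ (O i).nonunits := by
    have e : 1 - E = -(E - 1) := by ring
    rw [e, ValuationSubring.mem_nonunits_iff, Valuation.map_neg]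
    exact (ValuationSubring.mem_nonunits_iff _).mp hE2
  have hs'val : ∀ l, (O l).valuation s' = 1 := by
    intro l
    by_cases hl : l = i
    · subst hl
      have e : s' = (1 - E) * (1 - s) + s := by
        rw [hs']
        ring
      have hlt : (O l).valuation ((1 - E) * (1 - s)) < (O l).valuation s := by
        rw [hs2, ← ValuationSubring.mem_nonunits_iff]
        exact nonunits_mul_mem h1E (sub_mem (one_mem _) (hs1 l))
      rw [e, Valuation.map_add_eq_of_lt_right _ hlt, hs2]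
    · apply val_eq_one_of_sub_one_mem_nonunits
      have e : s' - 1 = E * (s - 1) := by
        rw [hs']
        ring
      rw [e]
      exact nonunits_mul_mem (hE3 l hl) (sub_mem (hs1 l) (one_mem _))
  have hs'inv : ∀ l, s'⁻¹ ∈ O l := by
    intro l
    rw [← (O l).valuation_le_one_iff, map_inv₀, hs'val l, inv_one]
  have hs'0 : s' ≠ 0 := by
    intro h0
    have := hs'val i
    rw [h0, map_zero] at this
    exact zero_ne_one this
  set b : F := E * (s * b₀) * s'⁻¹ with hbdef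
  have hb : ∀ l, b ∈ O l := fun l => mul_mem (mul_mem (hE1 l) (hsb l)) (hs'inv l)
  refine ⟨b, hb, ?_, fun l hl => ?_⟩
  · -- at `i`
    have e0 : b₀ = b₀ * s' * s'⁻¹ := by rw [mul_assoc, mul_inv_cancel₀ hs'0, mul_one]
    have h3 : E * (s * b₀) - b₀ * s' = b₀ * (E - 1) := by
      rw [hs']
      ring
    have e : b - b₀ = (b₀ * s'⁻¹) * (E - 1) := by
      calc b - b₀ = E * (s * b₀) * s'⁻¹ - b₀ * s' * s'⁻¹ := by rw [← e0]
        _ = (E * (s * b₀) - b₀ * s') * s'⁻¹ := by ring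
        _ = (b₀ * s'⁻¹) * (E - 1) := by rw [h3]; ring
    have hmem : b - b₀ ∈ (O i).nonunits := by
      rw [e]
      exact mul_nonunits_mem (mul_mem hb₀m (hs'inv i)) hE2
    obtain ⟨hd, hd0⟩ := nm_red_eq_zero_of_mem_nonunits G i hmem
    have e2 : (⟨b - b₀, hd⟩ : (S i).Ov) = ⟨b, hb i⟩ - ⟨b₀, hb₀m⟩ := rfl
    rw [e2, map_sub, sub_eq_zero] at hd0
    rw [hd0, hb₀]
  · -- at `l ≠ i`
    have hmem : b ∈ (O l).nonunits := by
      rw [hbdef, mul_assoc]
      exact nonunits_mul_mem (hE3 l hl) (mul_mem (hsb l) (hs'inv l))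
    obtain ⟨hd, hd0⟩ := nm_red_eq_zero_of_mem_nonunits G l hmem
    exact hd0

end Lift

/-! ### the `NMSetup` of a Gauss family -/

section Setup

/-- the Gauss ring of `K(w)`. -/
def nmOE (S : ∀ i, ValSetup K F k (Fk i)) (w : F) (i₀ : ι) : ValuationSubring K⟮w⟯ :=
  (S i₀).Ov.comap (algebraMap K⟮w⟯ F)

theorem mem_nmOE {i₀ : ι} {y : K⟮w⟯} : y ∈ nmOE S w i₀ ↔ (y : F) ∈ (S i₀).Ov := Iff.rfl

variable (G : GaussFamily S A res w)

/-- the residue maps of the Gauss ring, with values in `k(w̄_i)`. -/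
def nmρE (i₀ i : ι) : nmOE S w i₀ →+* k⟮(S i).red w⟯ where
  toFun a := ⟨(S i).red ((a : K⟮w⟯) : F),
    sn_red_mem_adjoin (S i) (G.mem i) (G.trans i) (a : K⟮w⟯).2
      ((nm_mem_iff G (a : K⟮w⟯).2 i₀ i).mp a.2)⟩
  map_one' := Subtype.ext (by simp)
  map_mul' a b := Subtype.ext (by
    have ha : ((a : K⟮w⟯) : F) ∈ (S i).Ov := (nm_mem_iff G (a : K⟮w⟯).2 i₀ i).mp a.2
    have hb : ((b : K⟮w⟯) : F) ∈ (S i).Ov := (nm_mem_iff G (b : K⟮w⟯).2 i₀ i).mp b.2
    simpa using (S i).red_mul ha hb)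
  map_zero' := Subtype.ext (by simp)
  map_add' a b := Subtype.ext (by
    have ha : ((a : K⟮w⟯) : F) ∈ (S i).Ov := (nm_mem_iff G (a : K⟮w⟯).2 i₀ i).mp a.2
    have hb : ((b : K⟮w⟯) : F) ∈ (S i).Ov := (nm_mem_iff G (b : K⟮w⟯).2 i₀ i).mp b.2
    simpa using (S i).red_add ha hb)

@[simp]
theorem nmρE_coe (i₀ i : ι) (a : nmOE S w i₀) :
    ((nmρE G i₀ i a : k⟮(S i).red w⟯) : Fk i) = (S i).red ((a : K⟮w⟯) : F) := rfl

/-- a Gauss family is an `NMSetup` over the Gauss ring. -/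
theorem nmSetup [Fintype ι] [DecidableEq ι] [Infinite k] [FiniteDimensional K⟮w⟯ F] (i₀ : ι) :
    NMSetup (E := K⟮w⟯) (F := F) (Ek := fun i => k⟮(S i).red w⟯) (Fk := Fk)
      (nmOE S w i₀) (fun i => (S i).Ov) (nmρE G i₀) (fun i => (S i).ρ) where
  mem_iff i y := nm_mem_iff G y.2 i i₀
  red_map i y hy hy' := by
    rw [← (S i).red_of_mem hy']
    rfl
  ker i y hy := by
    by_contra hne
    apply hy
    have h1 : (S i).red ((y : K⟮w⟯) : F) ≠ 0 := by
      intro h0
      apply hne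
      apply Subtype.ext
      rw [nmρE_coe]
      exact h0
    have hinv := (S i).inv_mem_of_red_ne_zero h1
    have hy0 := (S i).ne_zero_of_red_ne_zero h1
    have hinv' : ((y : K⟮w⟯)⁻¹ : K⟮w⟯) ∈ nmOE S w i₀ := by
      rw [mem_nmOE]
      have : (((y : K⟮w⟯)⁻¹ : K⟮w⟯) : F) = ((y : K⟮w⟯) : F)⁻¹ := rfl
      rw [this]
      exact (nm_mem_iff G (inv_mem (y : K⟮w⟯).2) i i₀).mp hinv
    refine IsUnit.of_mul_eq_one (⟨(y : K⟮w⟯)⁻¹, hinv'⟩ : nmOE S w i₀) ?_
    apply Subtype.ext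
    apply Subtype.ext
    show ((y : K⟮w⟯) : F) * ((y : K⟮w⟯) : F)⁻¹ = 1
    exact mul_inv_cancel₀ hy0
  lift i β := nm_joint_lift G i β

end Setup

end Fermat.Agent.BadRed.NodeMulti
end
end MergeWrap_Lib_BadRed_Graph_NodeMultiGauss

section MergeWrap_Lib_BadRed_Graph_NodeMulti -- from Lib/BadRed/Graph/NodeMulti.lean

set_option autoImplicit false
set_option linter.style.haveILetI false
set_option linter.unusedSectionVars false

noncomputable section

open Polynomial IntermediateField AlgebraicCurve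

namespace Fermat.Agent.BadRed.NodeMulti

open Fermat.Agent.Deuring Fermat.Agent.RR Fermat.Agent.RRHur Fermat.Agent.BadRed.SeedNode

/-- an element which is a root of a monic polynomial with coefficients in `K[x]` has no poles
off the poles of `x`. -/
theorem nm_regular_of_root {K F : Type*} [Field K] [Field F] [Algebra K F] {x : F} (f : F)
    (Φ : Polynomial (Polynomial K)) (hmonic : (Φ.map (toAdj x)).Monic)
    (hroot : Polynomial.aeval f (Φ.map (toAdj (K := K) x)) = 0) :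
    ∀ v : Place K F, 0 ≤ v.ord x → 0 ≤ v.ord f := by
  intro v hv
  apply Fermat.Agent.S24Res.ord_nonneg_of_mem
  let R : Subring K⟮x⟯ := (toAdj (K := K) x).range
  letI : Algebra R F := ((algebraMap K⟮x⟯ F).comp R.subtype).toAlgebra
  have halg : ∀ r : R, algebraMap R F r = ((r : K⟮x⟯) : F) := fun r => rfl
  refine Fermat.Agent.S24Bridge.mem_of_isIntegral (R := R) v (fun r => ?_) ?_
  · rw [halg]
    obtain ⟨p, hp⟩ := r.2
    rw [← hp, coe_toAdj]
    have := adicValuation_aeval_le_one v ((adicValuation_le_one_iff' v).mpr hv) p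
    exact Fermat.Agent.S24Res.mem_of_ord_nonneg v ((adicValuation_le_one_iff' v).mp this)
  · have hmap : (Φ.map (toAdj (K := K) x).rangeRestrict).map R.subtype = Φ.map (toAdj x) := by
      rw [Polynomial.map_map]
      rfl
    have hmonic' : (Φ.map (toAdj (K := K) x).rangeRestrict).Monic := by
      apply Polynomial.monic_of_injective (f := R.subtype) Subtype.val_injective
      rw [hmap]
      exact hmonic
    refine ⟨Φ.map (toAdj (K := K) x).rangeRestrict, hmonic', ?_⟩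
    have h2 := hroot
    rw [← hmap, Polynomial.aeval_def, Polynomial.eval₂_map] at h2
    exact h2

variable {K F k : Type*} [Field K] [Field F] [Algebra K F] [Field k]

section OneSide

variable {ι : Type*} {Fk : ι → Type*} [∀ i, Field (Fk i)] [∀ i, Algebra k (Fk i)]
  {S : ∀ i, ValSetup K F k (Fk i)} {A : ValuationSubring K} {res : A →+* k} {w : F}

/-- **One side of the node theorem.**  The coefficients of the characteristic polynomial of `f`
over `K(w)` are integral; if their reductions are the polynomials `Q r` in `w̄`, then the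
bivariate polynomial `snPhi n Q` is the product of the characteristic polynomials of the
reductions of `f`. -/
theorem nm_side (G : GaussFamily S A res w) [Fintype ι] [Infinite k]
    (L : IntermediateField K F) (hL : K⟮w⟯ = L) [FiniteDimensional L F]
    [∀ i, FiniteDimensional k⟮(S i).red w⟯ (Fk i)]
    (hdeg : Module.finrank L F ≤ ∑ i, Module.finrank k⟮(S i).red w⟯ (Fk i))
    (f : F) (hf : ∀ i, f ∈ (S i).Ov) :
    (∀ (r : ℕ) (i : ι), (((LinearMap.mulLeft L f).charpoly.coeff r : L) : F) ∈ (S i).Ov) ∧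
    ∀ (Q : ℕ → k[X]) (i₀ : ι),
      (∀ r, (S i₀).red (((LinearMap.mulLeft L f).charpoly.coeff r : L) : F) =
        Polynomial.aeval ((S i₀).red w) (Q r)) →
      ∃ Ψ : ι → Polynomial (Polynomial k),
        (∀ i, (Ψ i).Monic ∧ (Ψ i).map (toAdj ((S i).red w)) =
          (LinearMap.mulLeft k⟮(S i).red w⟯ ((S i).red f)).charpoly) ∧
        snPhi (Module.finrank L F) Q = ∏ i, Ψ i := by
  classical
  subst hL
  have hne : Nonempty ι := by
    by_contra hemp
    rw [not_nonempty_iff] at hemp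
    have h0 : Module.finrank K⟮w⟯ F ≤ 0 := by
      simpa using hdeg
    have := Module.finrank_pos (R := K⟮w⟯) (M := F)
    omega
  obtain ⟨j₀⟩ := hne
  have H := nmSetup G j₀
  obtain ⟨P, Pb, hPmonic, hPdeg, hPmap, hPbmonic, hPbmap, hcong⟩ :=
    nm_charpoly_multi H hdeg f hf
  have hcoeff : ∀ r, ((P.coeff r : nmOE S w j₀) : K⟮w⟯) =
      (LinearMap.mulLeft K⟮w⟯ f).charpoly.coeff r := by
    intro r
    rw [← hPmap, Polynomial.coeff_map]
    rfl
  have hint : ∀ (r : ℕ) (i : ι),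
      (((LinearMap.mulLeft K⟮w⟯ f).charpoly.coeff r : K⟮w⟯) : F) ∈ (S i).Ov := by
    intro r i
    rw [← hcoeff r]
    exact (nm_mem_iff G ((P.coeff r : nmOE S w j₀) : K⟮w⟯).2 j₀ i).mp (P.coeff r).2
  refine ⟨hint, fun Q i₀ hQ => ?_⟩
  set n := Module.finrank K⟮w⟯ F with hn
  -- the reduction of `P` at every `i`
  have hPred : ∀ i, P.map (nmρE G j₀ i) = (snPhi n Q).map (toAdj ((S i).red w)) := by
    intro i
    ext r : 1
    rw [Polynomial.coeff_map, Polynomial.coeff_map, snPhi_coeff]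
    apply Subtype.ext
    rw [nmρE_coe, hcoeff r]
    split_ifs with hr
    · rw [coe_toAdj]
      exact nm_red_canonical G
        ((LinearMap.mulLeft K⟮w⟯ f).charpoly.coeff r : K⟮w⟯).2 i₀ i (hint r i₀) (Q r) (hQ r)
    · have h0 : (LinearMap.mulLeft K⟮w⟯ f).charpoly.coeff r = 0 := by
        rw [← hcoeff r]
        have : P.coeff r = 0 := Polynomial.coeff_eq_zero_of_natDegree_lt (by omega)
        rw [this]
        rfl
      rw [h0, map_zero]
      exact (S i).red_zero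
  -- the reductions of `f` are regular
  have hρf : ∀ i, (S i).ρ ⟨f, hf i⟩ = (S i).red f := fun i => ((S i).red_of_mem (hf i)).symm
  have hPb : ∀ i, (Pb i).map (nmρE G j₀ i) =
      (LinearMap.mulLeft k⟮(S i).red w⟯ ((S i).red f)).charpoly := by
    intro i
    rw [hPbmap i, hρf i]
  have hroot : ∀ i, Polynomial.aeval ((S i).red f)
      ((snPhi n Q).map (toAdj ((S i).red w))) = 0 := by
    intro i
    rw [← hPred i, hcong i, map_prod]
    refine Finset.prod_eq_zero (Finset.mem_univ i) ?_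
    rw [hPb i]
    exact aeval_charpoly_mulLeft (L := k⟮(S i).red w⟯) ((S i).red f)
  have hmonic : ∀ i, ((snPhi n Q).map (toAdj ((S i).red w))).Monic := by
    intro i
    rw [← hPred i]
    exact hPmonic.map _
  have hreg : ∀ i, ∀ v : Place k (Fk i), 0 ≤ v.ord ((S i).red w) → 0 ≤ v.ord ((S i).red f) :=
    fun i => nm_regular_of_root ((S i).red f) (snPhi n Q) (hmonic i) (hroot i)
  choose Ψ hΨmonic hΨ using fun i =>
    exists_charpoly_poly (S i).hFk (G.trans i) ((S i).red f) (hreg i)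
  refine ⟨Ψ, fun i => ⟨hΨmonic i, hΨ i⟩, ?_⟩
  -- transport of the blocks to `i₀`
  have hblock : ∀ i, (Pb i).map (nmρE G j₀ i₀) = (Ψ i).map (toAdj ((S i₀).red w)) := by
    intro i
    ext r : 1
    rw [Polynomial.coeff_map, Polynomial.coeff_map]
    apply Subtype.ext
    rw [nmρE_coe, coe_toAdj]
    have hmem : ((((Pb i).coeff r : nmOE S w j₀) : K⟮w⟯) : F) ∈ (S i).Ov :=
      (nm_mem_iff G (((Pb i).coeff r : nmOE S w j₀) : K⟮w⟯).2 j₀ i).mp ((Pb i).coeff r).2
    refine nm_red_canonical G (((Pb i).coeff r : nmOE S w j₀) : K⟮w⟯).2 i i₀ hmem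
      ((Ψ i).coeff r) ?_
    have h1 := congrArg (fun p => ((p.coeff r : k⟮(S i).red w⟯) : Fk i)) ((hPb i).trans (hΨ i).symm)
    simp only [Polynomial.coeff_map, nmρE_coe, coe_toAdj] at h1
    exact h1
  apply Polynomial.map_injective (toAdj ((S i₀).red w)) (toAdj_injective (G.trans i₀))
  rw [← hPred i₀, hcong i₀, Polynomial.map_prod]
  exact Finset.prod_congr rfl fun i _ => hblock i

end OneSide

section TwoSides

variable {ι₁ ι₂ : Type*} [Fintype ι₁] [Fintype ι₂]
  {Fk₁ : ι₁ → Type*} [∀ i, Field (Fk₁ i)] [∀ i, Algebra k (Fk₁ i)]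
  {Fk₂ : ι₂ → Type*} [∀ j, Field (Fk₂ j)] [∀ j, Algebra k (Fk₂ j)]
  {S₁ : ∀ i, ValSetup K F k (Fk₁ i)} {S₂ : ∀ j, ValSetup K F k (Fk₂ j)}
  {A : ValuationSubring K} {res : A →+* k} {u : F} {ϖ : K}

/-- **The multi-extension node theorem, polynomial form.** -/
theorem nm_node_poly [Infinite k] (hϖ0 : ϖ ≠ 0) (hϖ : ϖ ∈ A) (hϖres : res ⟨ϖ, hϖ⟩ = 0)
    (G₁ : GaussFamily S₁ A res u) (G₂ : GaussFamily S₂ A res (algebraMap K F ϖ / u))
    [FiniteDimensional K⟮u⟯ F] [∀ i, FiniteDimensional k⟮(S₁ i).red u⟯ (Fk₁ i)]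
    [∀ j, FiniteDimensional k⟮(S₂ j).red (algebraMap K F ϖ / u)⟯ (Fk₂ j)]
    (hdeg₁ : Module.finrank K⟮u⟯ F ≤ ∑ i, Module.finrank k⟮(S₁ i).red u⟯ (Fk₁ i))
    (hdeg₂ : Module.finrank K⟮u⟯ F ≤
      ∑ j, Module.finrank k⟮(S₂ j).red (algebraMap K F ϖ / u)⟯ (Fk₂ j))
    (f : F) (hf₁ : ∀ i, f ∈ (S₁ i).Ov) (hf₂ : ∀ j, f ∈ (S₂ j).Ov)
    (hf : ∀ v : Place K F, v.ord f < 0 → v.ord u ≠ 0) :
    ∃ (Ψ₁ : ι₁ → Polynomial (Polynomial k)) (Ψ₂ : ι₂ → Polynomial (Polynomial k)),
      (∀ i, (Ψ₁ i).Monic ∧ (Ψ₁ i).map (toAdj ((S₁ i).red u)) =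
        (LinearMap.mulLeft k⟮(S₁ i).red u⟯ ((S₁ i).red f)).charpoly) ∧
      (∀ j, (Ψ₂ j).Monic ∧ (Ψ₂ j).map (toAdj ((S₂ j).red (algebraMap K F ϖ / u))) =
        (LinearMap.mulLeft k⟮(S₂ j).red (algebraMap K F ϖ / u)⟯ ((S₂ j).red f)).charpoly) ∧
      ∏ i, (Ψ₁ i).map (Polynomial.evalRingHom 0) = ∏ j, (Ψ₂ j).map (Polynomial.evalRingHom 0) := by
  classical
  have hne₁ : Nonempty ι₁ := by
    by_contra hemp
    rw [not_nonempty_iff] at hemp
    have h0 : Module.finrank K⟮u⟯ F ≤ 0 := by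
      simpa using hdeg₁
    have := Module.finrank_pos (R := K⟮u⟯) (M := F)
    omega
  have hne₂ : Nonempty ι₂ := by
    by_contra hemp
    rw [not_nonempty_iff] at hemp
    have h0 : Module.finrank K⟮u⟯ F ≤ 0 := by
      simpa using hdeg₂
    have := Module.finrank_pos (R := K⟮u⟯) (M := F)
    omega
  obtain ⟨i₀⟩ := hne₁
  obtain ⟨j₀⟩ := hne₂
  have hu0 : u ≠ 0 := by
    rintro rfl
    apply G₁.trans i₀
    rw [(S₁ i₀).red_zero]
    exact isAlgebraic_zero
  have huK : Transcendental K u := sn_transcendental_of_red (S₁ i₀) (G₁.mem i₀) (G₁.trans i₀)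
  have hL : K⟮algebraMap K F ϖ / u⟯ = K⟮u⟯ := sn_adjoin_inv_eq hϖ0 hu0
  obtain ⟨hint₁, hside₁⟩ := nm_side G₁ K⟮u⟯ rfl hdeg₁ f hf₁
  obtain ⟨hint₂, hside₂⟩ := nm_side G₂ K⟮u⟯ hL hdeg₂ f hf₂
  -- Laurent form of the coefficients
  have hC := exists_laurent_coeff (S₁ i₀).hF huK f hf
  choose M P hMP using hC
  have hA : (S₁ i₀).A = (S₂ j₀).A := (G₁.hA i₀).trans (G₂.hA j₀).symm
  have hres : ∀ (c : K) (h₁ : c ∈ (S₁ i₀).A) (h₂ : c ∈ (S₂ j₀).A),
      (S₁ i₀).res ⟨c, h₁⟩ = (S₂ j₀).res ⟨c, h₂⟩ := by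
    intro c h₁ h₂
    have hc : c ∈ A := by
      rw [← G₁.hA i₀]
      exact h₁
    rw [G₁.hres i₀ c h₁ hc, G₂.hres j₀ c h₂ hc]
  have hϖ₁ : ϖ ∈ (S₁ i₀).A := G₁.mem_A i₀ hϖ
  have hϖres₁ : (S₁ i₀).res ⟨ϖ, hϖ₁⟩ = 0 := by
    rw [G₁.hres i₀ ϖ hϖ₁ hϖ, hϖres]
  have hB := fun r => laurent_gauss (S₁ i₀) (S₂ j₀) hA hres hϖ0 hϖ₁ hϖres₁ (G₁.mem i₀)
    (G₁.trans i₀) (G₂.mem j₀) (G₂.trans j₀) _ (hint₁ r i₀) (hint₂ r j₀) (M r) (P r) (hMP r)
  choose Q₁ Q₂ h0 hQ₁ hQ₂ using hB
  obtain ⟨Ψ₁, hΨ₁, hprod₁⟩ := hside₁ Q₁ i₀ hQ₁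
  obtain ⟨Ψ₂, hΨ₂, hprod₂⟩ := hside₂ Q₂ j₀ hQ₂
  refine ⟨Ψ₁, Ψ₂, hΨ₁, hΨ₂, ?_⟩
  rw [← Polynomial.map_prod, ← Polynomial.map_prod, ← hprod₁, ← hprod₂]
  exact snPhi_eval_zero _ Q₁ Q₂ h0

/-- **The multi-extension node theorem, set form**: the reductions of `f` are regular off the
poles of `ū`, `ū'`, and the set of values of the reductions of `f` at the zeros of `ū` (on all
the components of the first family) equals the set of its values at the zeros of `ū'` (on all the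
components of the second family). -/
theorem nm_node_values [Infinite k] (hϖ0 : ϖ ≠ 0) (hϖ : ϖ ∈ A) (hϖres : res ⟨ϖ, hϖ⟩ = 0)
    (G₁ : GaussFamily S₁ A res u) (G₂ : GaussFamily S₂ A res (algebraMap K F ϖ / u))
    [FiniteDimensional K⟮u⟯ F] [∀ i, FiniteDimensional k⟮(S₁ i).red u⟯ (Fk₁ i)]
    [∀ j, FiniteDimensional k⟮(S₂ j).red (algebraMap K F ϖ / u)⟯ (Fk₂ j)]
    (hdeg₁ : Module.finrank K⟮u⟯ F ≤ ∑ i, Module.finrank k⟮(S₁ i).red u⟯ (Fk₁ i))
    (hdeg₂ : Module.finrank K⟮u⟯ F ≤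
      ∑ j, Module.finrank k⟮(S₂ j).red (algebraMap K F ϖ / u)⟯ (Fk₂ j))
    (f : F) (hf₁ : ∀ i, f ∈ (S₁ i).Ov) (hf₂ : ∀ j, f ∈ (S₂ j).Ov)
    (hf : ∀ v : Place K F, v.ord f < 0 → v.ord u ≠ 0) :
    (∀ (i : ι₁) (Q : Place k (Fk₁ i)), 0 ≤ Q.ord ((S₁ i).red u) → 0 ≤ Q.ord ((S₁ i).red f)) ∧
    (∀ (j : ι₂) (Q : Place k (Fk₂ j)), 0 ≤ Q.ord ((S₂ j).red (algebraMap K F ϖ / u)) →
      0 ≤ Q.ord ((S₂ j).red f)) ∧
    ∀ c : k, (∃ i, ∃ Q : Place k (Fk₁ i), 0 < Q.ord ((S₁ i).red u) ∧ ValAt Q ((S₁ i).red f) c) ↔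
      (∃ j, ∃ Q : Place k (Fk₂ j), 0 < Q.ord ((S₂ j).red (algebraMap K F ϖ / u)) ∧
        ValAt Q ((S₂ j).red f) c) := by
  classical
  obtain ⟨Ψ₁, Ψ₂, hΨ₁, hΨ₂, hprod⟩ := nm_node_poly hϖ0 hϖ hϖres G₁ G₂ hdeg₁ hdeg₂ f hf₁ hf₂ hf
  refine ⟨fun i => regular_of_charpoly_poly ((S₁ i).red f) (Ψ₁ i) (hΨ₁ i).2,
    fun j => regular_of_charpoly_poly ((S₂ j).red f) (Ψ₂ j) (hΨ₂ j).2, fun c => ?_⟩
  have hR₁ : ∀ i, ((Ψ₁ i).map (Polynomial.evalRingHom 0)).eval c = 0 ↔
      ∃ Q : Place k (Fk₁ i), 0 < Q.ord ((S₁ i).red u) ∧ ValAt Q ((S₁ i).red f) c := by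
    intro i
    have := root_iff_exists_place (S₁ i).hFk (G₁.trans i) ((S₁ i).red f) (Ψ₁ i) (hΨ₁ i).2 0 c
    rwa [map_zero, sub_zero] at this
  have hR₂ : ∀ j, ((Ψ₂ j).map (Polynomial.evalRingHom 0)).eval c = 0 ↔
      ∃ Q : Place k (Fk₂ j), 0 < Q.ord ((S₂ j).red (algebraMap K F ϖ / u)) ∧
        ValAt Q ((S₂ j).red f) c := by
    intro j
    have := root_iff_exists_place (S₂ j).hFk (G₂.trans j) ((S₂ j).red f) (Ψ₂ j) (hΨ₂ j).2 0 c
    rwa [map_zero, sub_zero] at this
  have h1 : (∃ i, ∃ Q : Place k (Fk₁ i), 0 < Q.ord ((S₁ i).red u) ∧ ValAt Q ((S₁ i).red f) c) ↔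
      (∏ i, (Ψ₁ i).map (Polynomial.evalRingHom 0)).eval c = 0 := by
    rw [Polynomial.eval_prod, Finset.prod_eq_zero_iff]
    constructor
    · rintro ⟨i, hi⟩
      exact ⟨i, Finset.mem_univ i, (hR₁ i).mpr hi⟩
    · rintro ⟨i, -, hi⟩
      exact ⟨i, (hR₁ i).mp hi⟩
  have h2 : (∃ j, ∃ Q : Place k (Fk₂ j), 0 < Q.ord ((S₂ j).red (algebraMap K F ϖ / u)) ∧
      ValAt Q ((S₂ j).red f) c) ↔
      (∏ j, (Ψ₂ j).map (Polynomial.evalRingHom 0)).eval c = 0 := by
    rw [Polynomial.eval_prod, Finset.prod_eq_zero_iff]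
    constructor
    · rintro ⟨j, hj⟩
      exact ⟨j, Finset.mem_univ j, (hR₂ j).mpr hj⟩
    · rintro ⟨j, -, hj⟩
      exact ⟨j, (hR₂ j).mp hj⟩
  rw [h1, h2, hprod]

end TwoSides

end Fermat.Agent.BadRed.NodeMulti
end
end MergeWrap_Lib_BadRed_Graph_NodeMulti

section MergeWrap_Lib_BadRed_Graph_NodeMultiWire -- from Lib/BadRed/Graph/NodeMultiWire.lean

set_option autoImplicit false
set_option linter.style.haveILetI false
set_option linter.unusedSectionVars false

noncomputable section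

open AlgebraicCurve Polynomial IntermediateField

namespace Fermat.Agent.BadRedG

open Fermat.Agent.RR Fermat.Agent.Deuring Fermat.Agent.BadRed Fermat.Agent.BadRed.SeedNode
open Fermat.Agent.BadRed.NodeMulti

variable {K F k : Type*} [Field K] [Field F] [Algebra K F] [Field k]
  {κ : Type*} {Fk : κ → Type*} [∀ c, Field (Fk c)] [∀ c, Algebra k (Fk c)]

/-- the root multiplicity of a finite product of monic polynomials. -/
theorem nmw_rootMultiplicity_prod {ι : Type*} (s : Finset ι) (p : ι → k[X])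
    (hp : ∀ i ∈ s, (p i).Monic) (a : k) :
    (∏ i ∈ s, p i).rootMultiplicity a = ∑ i ∈ s, (p i).rootMultiplicity a := by
  classical
  induction s using Finset.induction_on with
  | empty => simp
  | insert j s hj ih =>
    have h1 : (p j).Monic := hp j (Finset.mem_insert_self j s)
    have h2 : (∏ i ∈ s, p i).Monic :=
      Polynomial.monic_prod_of_monic s p fun i hi => hp i (Finset.mem_insert_of_mem hi)
    rw [Finset.prod_insert hj, Finset.sum_insert hj,
      Polynomial.rootMultiplicity_mul (h1.mul h2).ne_zero,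
      ih fun i hi => hp i (Finset.mem_insert_of_mem hi)]

/-- **The multi-extension node theorem, multiset form** (helper99's `MultiNodeStatement`), from
the refined root formula on every component. -/
theorem multiNode_of_rootCount [Infinite k] (S : ∀ c : κ, ValSetup K F k (Fk c))
    (V₁ V₂ : Finset κ) (u : F) (ϖ : K) (hRC : ∀ c, RootCountStatement k (Fk c)) :
    MultiNodeStatement S V₁ V₂ u ϖ := by
  classical
  intro D f hf₁ hf₂ hf
  obtain ⟨c₀, hc₀⟩ := D.ne₁
  have hinj : ∀ c c' : κ, (S c).Ov = (S c').Ov → c = c' := by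
    intro c c' h
    by_contra hne
    exact D.indep c c' hne (le_of_eq h)
  have G₁ : GaussFamily (ι := V₁) (Fk := fun i => Fk i.1) (fun i => S i.1) (S c₀).A (S c₀).res u :=
    { hA := fun i => D.A_eq _ _
      hres := fun i c h h' => D.res_eq _ _ c h h'
      mem := fun i => D.u_mem i.1 i.2
      trans := fun i => D.u_tr i.1 i.2
      inj := fun i j h => Subtype.ext (hinj _ _ h) }
  have G₂ : GaussFamily (ι := V₂) (Fk := fun i => Fk i.1) (fun i => S i.1) (S c₀).A (S c₀).res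
      (algebraMap K F ϖ / u) :=
    { hA := fun i => D.A_eq _ _
      hres := fun i c h h' => D.res_eq _ _ c h h'
      mem := fun i => D.u'_mem i.1 i.2
      trans := fun i => D.u'_tr i.1 i.2
      inj := fun i j h => Subtype.ext (hinj _ _ h) }
  have huK : Transcendental K u :=
    sn_transcendental_of_red (S c₀) (D.u_mem c₀ hc₀) (D.u_tr c₀ hc₀)
  haveI : FiniteDimensional K⟮u⟯ F := Fermat.Agent.RedTr.fundIdK_finiteDimensional (S c₀).hF huK
  haveI h₁ : ∀ i : V₁, FiniteDimensional k⟮(S i.1).red u⟯ (Fk i.1) := fun i =>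
    Fermat.Agent.RedTr.fundIdK_finiteDimensional (S i.1).hFk (D.u_tr i.1 i.2)
  haveI h₂ : ∀ j : V₂, FiniteDimensional k⟮(S j.1).red (algebraMap K F ϖ / u)⟯ (Fk j.1) := fun j =>
    Fermat.Agent.RedTr.fundIdK_finiteDimensional (S j.1).hFk (D.u'_tr j.1 j.2)
  have hdeg₁ : Module.finrank K⟮u⟯ F ≤ ∑ i : V₁, Module.finrank k⟮(S i.1).red u⟯ (Fk i.1) := by
    rw [Finset.sum_coe_sort V₁ (fun c => Module.finrank k⟮(S c).red u⟯ (Fk c))]
    exact D.deg₁
  have hdeg₂ : Module.finrank K⟮u⟯ F ≤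
      ∑ j : V₂, Module.finrank k⟮(S j.1).red (algebraMap K F ϖ / u)⟯ (Fk j.1) := by
    rw [Finset.sum_coe_sort V₂
      (fun c => Module.finrank k⟮(S c).red (algebraMap K F ϖ / u)⟯ (Fk c))]
    exact D.deg₂
  obtain ⟨Ψ₁, Ψ₂, hΨ₁, hΨ₂, hprod⟩ := nm_node_poly (D.ϖ_ne) (D.ϖ_mem c₀) (D.ϖ_res c₀ _) G₁ G₂
    hdeg₁ hdeg₂ f (fun i => hf₁ i.1 i.2) (fun j => hf₂ j.1 j.2) hf
  refine ⟨fun c hc => ?_, fun c hc => ?_, fun a => ?_⟩
  · haveI := h₁ ⟨c, hc⟩
    exact regular_of_charpoly_poly ((S c).red f) (Ψ₁ ⟨c, hc⟩) (hΨ₁ ⟨c, hc⟩).2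
  · haveI := h₂ ⟨c, hc⟩
    exact regular_of_charpoly_poly ((S c).red f) (Ψ₂ ⟨c, hc⟩) (hΨ₂ ⟨c, hc⟩).2
  have e₁ : ∑ c ∈ V₁, mnCount (S c).hFk ((S c).red u) ((S c).red f) a =
      ∑ i : V₁, (((Ψ₁ i).map (Polynomial.evalRingHom 0)).rootMultiplicity a : ℤ) := by
    rw [← Finset.sum_coe_sort V₁ (fun c => mnCount (S c).hFk ((S c).red u) ((S c).red f) a)]
    refine Finset.sum_congr rfl fun i _ => ?_
    exact (hRC i.1 (S i.1).hFk ((S i.1).red u) (D.u_tr i.1 i.2) ((S i.1).red f) (Ψ₁ i)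
      (hΨ₁ i).2 a).symm
  have e₂ : ∑ c ∈ V₂, mnCount (S c).hFk ((S c).red (algebraMap K F ϖ / u)) ((S c).red f) a =
      ∑ j : V₂, (((Ψ₂ j).map (Polynomial.evalRingHom 0)).rootMultiplicity a : ℤ) := by
    rw [← Finset.sum_coe_sort V₂
      (fun c => mnCount (S c).hFk ((S c).red (algebraMap K F ϖ / u)) ((S c).red f) a)]
    refine Finset.sum_congr rfl fun j _ => ?_
    exact (hRC j.1 (S j.1).hFk ((S j.1).red (algebraMap K F ϖ / u)) (D.u'_tr j.1 j.2)
      ((S j.1).red f) (Ψ₂ j) (hΨ₂ j).2 a).symm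
  rw [e₁, e₂, ← Nat.cast_sum, ← Nat.cast_sum,
    ← nmw_rootMultiplicity_prod Finset.univ _ (fun i _ => (hΨ₁ i).1.map _) a,
    ← nmw_rootMultiplicity_prod Finset.univ _ (fun j _ => (hΨ₂ j).1.map _) a, hprod]

end Fermat.Agent.BadRedG
end
end MergeWrap_Lib_BadRed_Graph_NodeMultiWire
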